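import Fermat.Agent.EL.FG.AddSubCore

/-!
# EL / FG / AddSub : Mathlib's `WeierstrassCurve.addSubMap` does what it claims
(general Weierstrass curve over a field, every characteristic, all degenerate cases).
Template: `Fermat/Agent/S52/FB/AddSub.lean` (short curves).
-/

set_option autoImplicit false

namespace Fermat.Agent.EL

open WeierstrassCurve

theorem FG_addSub_eval {R : Type*} [CommRing R] (W : WeierstrassCurve R) (v : Fin 3 → R) :
    MvPolynomial.eval v (W.addSubMap 0)
      = v 0 ^ 2 - W.b₄ * v 0 * v 2 - W.b₆ * v 1 * v 2 - W.b₈ * v 2 ^ 2 ∧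
    MvPolynomial.eval v (W.addSubMap 1)
      = 2 * v 1 * v 0 + W.b₂ * v 0 * v 2 + W.b₄ * v 1 * v 2 + W.b₆ * v 2 ^ 2 ∧
    MvPolynomial.eval v (W.addSubMap 2) = v 1 ^ 2 - 4 * v 0 * v 2 := by
  refine ⟨?_, ?_, ?_⟩ <;> simp [WeierstrassCurve.addSubMap]

variable {F : Type*} [Field F] [DecidableEq F]

/-- `(x(P)x(Q) : x(P)+x(Q) : 1) ↦ (x(P+Q)x(P-Q) : x(P+Q)+x(P-Q) : 1)`,
all degenerate cases included. -/
theorem FG_addSubMap_sym2x (W : WeierstrassCurve F) (P Q : W.toAffine.Point) :
    ∃ κ : F, κ ≠ 0 ∧ ∀ i : Fin 3,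
      MvPolynomial.eval (P.sym2x Q) (W.addSubMap i) = κ * ((P + Q).sym2x (P - Q)) i := by
  have key : ∀ (κ : F) (w : Fin 3 → F), κ ≠ 0 →
      (P.sym2x Q 0 ^ 2 - W.b₄ * P.sym2x Q 0 * P.sym2x Q 2 - W.b₆ * P.sym2x Q 1 * P.sym2x Q 2
        - W.b₈ * P.sym2x Q 2 ^ 2 = κ * w 0) →
      (2 * P.sym2x Q 1 * P.sym2x Q 0 + W.b₂ * P.sym2x Q 0 * P.sym2x Q 2
        + W.b₄ * P.sym2x Q 1 * P.sym2x Q 2 + W.b₆ * P.sym2x Q 2 ^ 2 = κ * w 1) →
      (P.sym2x Q 1 ^ 2 - 4 * P.sym2x Q 0 * P.sym2x Q 2 = κ * w 2) →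
      (P + Q).sym2x (P - Q) = w →
      ∃ κ : F, κ ≠ 0 ∧ ∀ i : Fin 3,
      MvPolynomial.eval (P.sym2x Q) (W.addSubMap i) = κ * ((P + Q).sym2x (P - Q)) i := by
    intro κ w hκ h0 h1 h2 hw
    obtain ⟨e0, e1, e2⟩ := FG_addSub_eval W (P.sym2x Q)
    refine ⟨κ, hκ, fun i => ?_⟩
    rw [hw]
    fin_cases i
    · exact e0.trans h0
    · exact e1.trans h1
    · exact e2.trans h2
  rcases P with _ | ⟨x₁, y₁, h₁⟩ <;> rcases Q with _ | ⟨x₂, y₂, h₂⟩
  · refine key 1 ![1, 0, 0] one_ne_zero ?_ ?_ ?_ ?_ <;>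
      simp [← WeierstrassCurve.Affine.Point.zero_def]
  · refine key 1 ![x₂ * x₂, x₂ + x₂, 1] one_ne_zero ?_ ?_ ?_ ?_
    · simp [← WeierstrassCurve.Affine.Point.zero_def]; ring
    · simp [← WeierstrassCurve.Affine.Point.zero_def]; ring
    · simp [← WeierstrassCurve.Affine.Point.zero_def]
    · simp [← WeierstrassCurve.Affine.Point.zero_def]
  · refine key 1 ![x₁ * x₁, x₁ + x₁, 1] one_ne_zero ?_ ?_ ?_ ?_
    · simp [← WeierstrassCurve.Affine.Point.zero_def]; ring
    · simp [← WeierstrassCurve.Affine.Point.zero_def]; ring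
    · simp [← WeierstrassCurve.Affine.Point.zero_def]
    · simp [← WeierstrassCurve.Affine.Point.zero_def]
  · have e₁ := h₁.1
    have e₂ := h₂.1
    simp only [WeierstrassCurve.Affine.Point.sym2x_some_some, Matrix.cons_val_zero,
      Matrix.cons_val_one, Matrix.cons_val] at key ⊢
    by_cases hx : x₁ = x₂
    · subst hx
      have hy : y₁ = y₂ ∨ y₁ = W.toAffine.negY x₁ y₂ :=
        WeierstrassCurve.Affine.Y_eq_of_X_eq e₁ e₂ rfl
      by_cases h2 : y₁ = W.toAffine.negY x₁ y₁
      · have hyy : y₂ = y₁ := by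
          rcases hy with h | h
          · exact h.symm
          · have := congrArg (W.toAffine.negY x₁) h
            rw [WeierstrassCurve.Affine.negY_negY] at this
            rw [← this, ← h2]
        subst hyy
        have hns : 3 * x₁ ^ 2 + 2 * W.a₂ * x₁ + W.a₄ - W.a₁ * y₂ ≠ 0 := by
          have := (WeierstrassCurve.Affine.nonsingular_iff _ _).1 h₁
          rcases this.2 with h | h
          · intro h0
            apply h
            linear_combination -h0
          · exact absurd h2 h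
        have hps := FG_psi_sq W e₁
        rw [← h2, sub_self] at hps
        have hph := FG_phi_two_torsion W e₁ h2
        refine key ((3 * x₁ ^ 2 + 2 * W.a₂ * x₁ + W.a₄ - W.a₁ * y₂) ^ 2) ![1, 0, 0]
          (pow_ne_zero 2 hns) ?_ ?_ ?_ ?_
        · simp only [Matrix.cons_val_zero]
          linear_combination hph
        · simp only [Matrix.cons_val_one, Matrix.cons_val_zero]
          linear_combination -hps
        · simp; ring
        · rw [sub_self, WeierstrassCurve.Affine.Point.add_self_of_Y_eq h2,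
            WeierstrassCurve.Affine.Point.sym2x_zero_zero]
      · have h2y : y₁ - W.toAffine.negY x₁ y₁ ≠ 0 := sub_ne_zero.2 h2
        have hps := FG_psi_sq W e₁
        have hdb := FG_addX_double W e₁ h2
        refine key ((y₁ - W.toAffine.negY x₁ y₁) ^ 2)
          ![W.toAffine.addX x₁ x₁ (W.toAffine.slope x₁ x₁ y₁ y₁), 1, 0] (pow_ne_zero 2 h2y)
          ?_ ?_ ?_ ?_
        · simp only [Matrix.cons_val_zero]
          rw [hps]
          linear_combination -hdb
        · simp only [Matrix.cons_val_one, Matrix.cons_val_zero]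
          linear_combination -hps
        · simp; ring
        · rcases hy with h | h
          · subst h
            rw [sub_self, WeierstrassCurve.Affine.Point.add_self_of_Y_ne h2,
              WeierstrassCurve.Affine.Point.sym2x_some_zero]
          · have hy2 : W.toAffine.negY x₁ y₂ = y₁ := h.symm
            have hne' : y₁ ≠ W.toAffine.negY x₁ (W.toAffine.negY x₁ y₂) := by
              rw [hy2]; exact h2
            rw [sub_eq_add_neg, WeierstrassCurve.Affine.Point.neg_some,
              WeierstrassCurve.Affine.Point.add_of_Y_eq rfl h,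
              WeierstrassCurve.Affine.Point.add_of_Y_ne hne',
              WeierstrassCurve.Affine.Point.sym2x_zero_some, hy2]
    · have hd : x₁ - x₂ ≠ 0 := sub_ne_zero.2 hx
      have hadd := FG_addX_add W e₁ e₂ hx
      have hmul := FG_addX_mul W e₁ e₂ hx
      refine key ((x₁ - x₂) ^ 2)
        ![W.toAffine.addX x₁ x₂ (W.toAffine.slope x₁ x₂ y₁ y₂)
            * W.toAffine.addX x₁ x₂ (W.toAffine.slope x₁ x₂ y₁ (W.toAffine.negY x₂ y₂)),
          W.toAffine.addX x₁ x₂ (W.toAffine.slope x₁ x₂ y₁ y₂)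
            + W.toAffine.addX x₁ x₂ (W.toAffine.slope x₁ x₂ y₁ (W.toAffine.negY x₂ y₂)), 1]
        (pow_ne_zero 2 hd) ?_ ?_ ?_ ?_
      · simp only [Matrix.cons_val_zero]
        linear_combination -hmul
      · simp only [Matrix.cons_val_one, Matrix.cons_val_zero]
        linear_combination -hadd
      · simp; ring
      · rw [sub_eq_add_neg, WeierstrassCurve.Affine.Point.neg_some,
          WeierstrassCurve.Affine.Point.add_of_X_ne hx, WeierstrassCurve.Affine.Point.add_of_X_ne hx,
          WeierstrassCurve.Affine.Point.sym2x_some_some]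

end Fermat.Agent.EL
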