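import Mathlib

/-!
# EL / FG / AddSubCore : the three polynomial identities behind `WeierstrassCurve.addSubMap`
(general Weierstrass curve over a field, every characteristic)
-/

set_option autoImplicit false

namespace Fermat.Agent.EL

open WeierstrassCurve

variable {F : Type*} [Field F] [DecidableEq F]

omit [DecidableEq F] in
/-- numerators of `x(P+Q)`, `x(P-Q)` -/
lemma FGAddSubCore_num (a₁ c d l n : F) (hd : d ≠ 0) (hl : l = n / d) :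
    (l ^ 2 + a₁ * l - c) * d ^ 2 = n ^ 2 + a₁ * n * d - c * d ^ 2 := by
  subst hl
  field_simp

/-- `(x(P+Q) + x(P-Q)) (x_P - x_Q)² = 2 (x_P + x_Q) x_P x_Q + b₂ x_P x_Q + b₄ (x_P + x_Q) + b₆` -/
theorem FG_addX_add (W : WeierstrassCurve F) {x₁ y₁ x₂ y₂ : F} (e₁ : W.toAffine.Equation x₁ y₁)
    (e₂ : W.toAffine.Equation x₂ y₂) (hx : x₁ ≠ x₂) :
    (W.toAffine.addX x₁ x₂ (W.toAffine.slope x₁ x₂ y₁ y₂)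
      + W.toAffine.addX x₁ x₂ (W.toAffine.slope x₁ x₂ y₁ (W.toAffine.negY x₂ y₂))) * (x₁ - x₂) ^ 2
      = 2 * (x₁ + x₂) * (x₁ * x₂) + W.b₂ * (x₁ * x₂) + W.b₄ * (x₁ + x₂) + W.b₆ := by
  have hd : x₁ - x₂ ≠ 0 := sub_ne_zero.2 hx
  rw [Affine.equation_iff] at e₁ e₂
  have hA := FGAddSubCore_num W.a₁ (W.a₂ + x₁ + x₂) (x₁ - x₂) _ _ hd
    (Affine.slope_of_X_ne (W := W.toAffine) (y₁ := y₁) (y₂ := y₂) hx)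
  have hB := FGAddSubCore_num W.a₁ (W.a₂ + x₁ + x₂) (x₁ - x₂) _ _ hd
    (Affine.slope_of_X_ne (W := W.toAffine) (y₁ := y₁) (y₂ := W.toAffine.negY x₂ y₂) hx)
  simp only [Affine.addX, Affine.negY, b₂, b₄, b₆] at hA hB ⊢
  linear_combination hA + hB + 2 * e₁ + 2 * e₂

/-- `x(P+Q) x(P-Q) (x_P - x_Q)² = (x_P x_Q)² - b₄ x_P x_Q - b₆ (x_P + x_Q) - b₈` -/
theorem FG_addX_mul (W : WeierstrassCurve F) {x₁ y₁ x₂ y₂ : F} (e₁ : W.toAffine.Equation x₁ y₁)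
    (e₂ : W.toAffine.Equation x₂ y₂) (hx : x₁ ≠ x₂) :
    (W.toAffine.addX x₁ x₂ (W.toAffine.slope x₁ x₂ y₁ y₂)
      * W.toAffine.addX x₁ x₂ (W.toAffine.slope x₁ x₂ y₁ (W.toAffine.negY x₂ y₂))) * (x₁ - x₂) ^ 2
      = (x₁ * x₂) ^ 2 - W.b₄ * (x₁ * x₂) - W.b₆ * (x₁ + x₂) - W.b₈ := by
  have hd : x₁ - x₂ ≠ 0 := sub_ne_zero.2 hx
  rw [Affine.equation_iff] at e₁ e₂
  have hA := FGAddSubCore_num W.a₁ (W.a₂ + x₁ + x₂) (x₁ - x₂) _ _ hd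
    (Affine.slope_of_X_ne (W := W.toAffine) (y₁ := y₁) (y₂ := y₂) hx)
  have hB := FGAddSubCore_num W.a₁ (W.a₂ + x₁ + x₂) (x₁ - x₂) _ _ hd
    (Affine.slope_of_X_ne (W := W.toAffine) (y₁ := y₁) (y₂ := W.toAffine.negY x₂ y₂) hx)
  generalize W.toAffine.slope x₁ x₂ y₁ y₂ = l at hA ⊢
  generalize W.toAffine.slope x₁ x₂ y₁ (W.toAffine.negY x₂ y₂) = m at hB ⊢
  apply mul_right_cancel₀ (pow_ne_zero 2 hd)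
  simp only [Affine.addX, Affine.negY, b₄, b₆, b₈] at hA hB ⊢
  linear_combination ((m ^ 2 + W.a₁ * m - (W.a₂ + x₁ + x₂)) * (x₁ - x₂) ^ 2) * hA
    + ((y₁ - y₂) ^ 2 + W.a₁ * (y₁ - y₂) * (x₁ - x₂) - (W.a₂ + x₁ + x₂) * (x₁ - x₂) ^ 2) * hB
    + (W.a₁ ^ 2 * x₁ * x₂ - W.a₁ ^ 2 * x₂ ^ 2 + W.a₁ * W.a₃ * x₁ - W.a₁ * W.a₃ * x₂
      + W.a₁ * x₁ * y₁ - 2 * W.a₁ * x₂ * y₂ - W.a₂ * x₁ ^ 2 + 4 * W.a₂ * x₁ * x₂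
      - 2 * W.a₂ * x₂ ^ 2 + W.a₃ * y₁ - 2 * W.a₃ * y₂ + W.a₄ * x₁ + W.a₆ - x₁ ^ 3
      + 2 * x₁ ^ 2 * x₂ + 2 * x₁ * x₂ ^ 2 + y₁ ^ 2 - 2 * x₂ ^ 3 - 2 * y₂ ^ 2) * e₁
    + (-W.a₁ ^ 2 * x₁ ^ 2 + W.a₁ ^ 2 * x₁ * x₂ - W.a₁ * W.a₃ * x₁ + W.a₁ * W.a₃ * x₂
      + W.a₁ * x₂ * y₂ - 4 * W.a₂ * x₁ ^ 2 + 4 * W.a₂ * x₁ * x₂ - W.a₂ * x₂ ^ 2 + W.a₃ * y₂
      - 2 * W.a₄ * x₁ + W.a₄ * x₂ - W.a₆ - 4 * x₁ ^ 3 + 2 * x₁ ^ 2 * x₂ + 2 * x₁ * x₂ ^ 2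
      - x₂ ^ 3 + y₂ ^ 2) * e₂

omit [DecidableEq F] in
/-- `(2y + a₁ x + a₃)² = 4x³ + b₂ x² + 2 b₄ x + b₆` -/
theorem FG_psi_sq (W : WeierstrassCurve F) {x y : F} (e : W.toAffine.Equation x y) :
    (y - W.toAffine.negY x y) ^ 2 = 4 * x ^ 3 + W.b₂ * x ^ 2 + 2 * W.b₄ * x + W.b₆ := by
  rw [Affine.equation_iff] at e
  simp only [Affine.negY, b₂, b₄, b₆]
  linear_combination 4 * e

/-- `x(2P) (4x³ + b₂ x² + 2 b₄ x + b₆) = x⁴ - b₄ x² - 2 b₆ x - b₈` when `2P ≠ 0` -/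
theorem FG_addX_double (W : WeierstrassCurve F) {x y : F} (e : W.toAffine.Equation x y)
    (hy : y ≠ W.toAffine.negY x y) :
    W.toAffine.addX x x (W.toAffine.slope x x y y)
      * (4 * x ^ 3 + W.b₂ * x ^ 2 + 2 * W.b₄ * x + W.b₆)
      = x ^ 4 - W.b₄ * x ^ 2 - 2 * W.b₆ * x - W.b₈ := by
  have hd : y - W.toAffine.negY x y ≠ 0 := sub_ne_zero.2 hy
  rw [← FG_psi_sq W e]
  have hA := FGAddSubCore_num W.a₁ (W.a₂ + x + x) (y - W.toAffine.negY x y) _ _ hd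
    (Affine.slope_of_Y_ne (W := W.toAffine) (x₁ := x) (x₂ := x) (y₁ := y) (y₂ := y) rfl hy)
  rw [Affine.equation_iff] at e
  simp only [Affine.addX, Affine.negY, b₄, b₆, b₈] at hA ⊢
  linear_combination hA + (-W.a₁ ^ 2 - 4 * W.a₂ - 8 * x) * e

omit [DecidableEq F] in
/-- at a `2`-torsion point, `x⁴ - b₄ x² - 2 b₆ x - b₈ = (3x² + 2 a₂ x + a₄ - a₁ y)²` -/
theorem FG_phi_two_torsion (W : WeierstrassCurve F) {x y : F} (e : W.toAffine.Equation x y)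
    (hy : y = W.toAffine.negY x y) :
    x ^ 4 - W.b₄ * x ^ 2 - 2 * W.b₆ * x - W.b₈
      = (3 * x ^ 2 + 2 * W.a₂ * x + W.a₄ - W.a₁ * y) ^ 2 := by
  rw [Affine.equation_iff] at e
  simp only [Affine.negY] at hy
  simp only [b₄, b₆, b₈]
  linear_combination (W.a₁ ^ 2 + 4 * W.a₂ + 8 * x) * e
    + (W.a₁ * (3 * x ^ 2 + 2 * W.a₂ * x + W.a₄ - W.a₁ * y)
      - (W.a₂ + 2 * x) * (2 * y + W.a₁ * x + W.a₃)) * hy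

end Fermat.Agent.EL
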