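import Fermat.Agent.EL.MapPt

/-!
# EL / FG / Chi : the endomorphism `χ = φ² - t φ + q` of the group of points
-/

set_option autoImplicit false

namespace Fermat.Agent.EL

open WeierstrassCurve

variable {F : Type*} [Field F] [DecidableEq F] {V : WeierstrassCurve F}

/-- `χ = φ² - t φ + q` -/
noncomputable def FG_chi (φ : F →+* F) (hφ : V.map φ = V) (t q : ℤ) :
    V.toAffine.Point →+ V.toAffine.Point :=
  (mapPt φ hφ).comp (mapPt φ hφ) - t • mapPt φ hφ + q • AddMonoidHom.id _

lemma FG_chi_apply (φ : F →+* F) (hφ : V.map φ = V) (t q : ℤ) (P : V.toAffine.Point) :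
    FG_chi φ hφ t q P = mapPt φ hφ (mapPt φ hφ P) - t • mapPt φ hφ P + q • P := rfl

lemma FG_map_chi {M : Type*} [Field M] [DecidableEq M] {VM : WeierstrassCurve M}
    (T : F →+* M) (hT : V.map T = VM) (φ : F →+* F) (hφ : V.map φ = V) (φ' : M →+* M)
    (hφ' : VM.map φ' = VM) (hc : ∀ x, T (φ x) = φ' (T x)) (t q : ℤ) (P : V.toAffine.Point) :
    mapPt T hT (FG_chi φ hφ t q P) = FG_chi φ' hφ' t q (mapPt T hT P) := by
  have hcomm : ∀ P : V.toAffine.Point,
      mapPt T hT (mapPt φ hφ P) = mapPt φ' hφ' (mapPt T hT P) := by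
    intro P
    rcases P with _ | ⟨x, y, h⟩
    · rfl
    · simp only [mapPt_some, hc]
  rw [FG_chi_apply, FG_chi_apply, map_add, map_sub, map_zsmul, map_zsmul, hcomm, hcomm]

end Fermat.Agent.EL
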