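import Fermat.Agent.EL.FG.Defs

/-!
# EL / FG / Const : constant points (coordinates in `κ`)
Template for `FG_isConstPt_iff`: `Main_isAlgPt_iff` in `Fermat/Agent/S52/FB/MainSpec.lean`.
-/

set_option autoImplicit false
set_option linter.unusedSectionVars false

namespace Fermat.Agent.EL

open Fermat.Agent.S52 WeierstrassCurve Polynomial

/-- points with coordinates in `κ` -/
def FG_IsConstPt (κ : Type*) [Field κ] {L : Type*} [Field L] [Algebra κ L]
    {WL : WeierstrassCurve L} : WL.toAffine.Point → Prop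
  | 0 => True
  | .some x y _ => (∃ c : κ, algebraMap κ L c = x) ∧ (∃ d : κ, algebraMap κ L d = y)

section base
variable {κ : Type*} [Field κ] {L : Type*} [Field L] [Algebra κ L] [DecidableEq L]
  {W : WeierstrassCurve κ}

lemma FG_isConstPt_iff [DecidableEq κ] (P : (W.map (algebraMap κ L)).toAffine.Point) :
    FG_IsConstPt κ P ↔
      P ∈ (mapPt (algebraMap κ L) rfl : W.toAffine.Point →+
        (W.map (algebraMap κ L)).toAffine.Point).range := by
  constructor
  · intro h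
    rcases P with _ | ⟨x, y, hxy⟩
    · exact AddSubgroup.zero_mem _
    · obtain ⟨⟨c, rfl⟩, ⟨d, rfl⟩⟩ := h
      have hns : W.toAffine.Nonsingular c d :=
        (WeierstrassCurve.Affine.map_nonsingular (W := W.toAffine) (f := algebraMap κ L)
          (algebraMap κ L).injective c d).mp hxy
      exact ⟨.some c d hns, rfl⟩
  · rintro ⟨Q, rfl⟩
    rcases Q with _ | ⟨x, y, hxy⟩
    · trivial
    · exact ⟨⟨x, rfl⟩, ⟨y, rfl⟩⟩

lemma FG_isConstPt_add {P Q : (W.map (algebraMap κ L)).toAffine.Point}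
    (hP : FG_IsConstPt κ P) (hQ : FG_IsConstPt κ Q) : FG_IsConstPt κ (P + Q) := by
  classical
  rw [FG_isConstPt_iff] at hP hQ ⊢
  exact add_mem hP hQ

lemma FG_isConstPt_sub {P Q : (W.map (algebraMap κ L)).toAffine.Point}
    (hP : FG_IsConstPt κ P) (hQ : FG_IsConstPt κ Q) : FG_IsConstPt κ (P - Q) := by
  classical
  rw [FG_isConstPt_iff] at hP hQ ⊢
  exact sub_mem hP hQ

/-- Frobenius preserves constant points -/
lemma FG_isConstPt_frob {WL : WeierstrassCurve L} (φ : L →+* L) (q : ℕ) (hφ : ∀ x, φ x = x ^ q)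
    (hφW : WL.map φ = WL) {P : WL.toAffine.Point} (hP : FG_IsConstPt κ P) :
    FG_IsConstPt κ (mapPt φ hφW P) := by
  rcases P with _ | ⟨x, y, hxy⟩
  · trivial
  · obtain ⟨⟨c, rfl⟩, ⟨d, rfl⟩⟩ := hP
    rw [mapPt_some]
    exact ⟨⟨c ^ q, by rw [hφ, map_pow]⟩, ⟨d ^ q, by rw [hφ, map_pow]⟩⟩

/-- a ring endomorphism fixing `κ` fixes the constant points -/
lemma FG_mapPt_of_isConstPt {WL : WeierstrassCurve L} (T : L →+* L)
    (hT : ∀ c : κ, T (algebraMap κ L c) = algebraMap κ L c) (hTW : WL.map T = WL)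
    {P : WL.toAffine.Point} (hP : FG_IsConstPt κ P) : mapPt T hTW P = P := by
  rcases P with _ | ⟨x, y, hxy⟩
  · rfl
  · obtain ⟨⟨c, rfl⟩, ⟨d, rfl⟩⟩ := hP
    rw [mapPt_some]
    simp only [hT]

/-- `κ` algebraically closed: a point with `x ∈ κ` is constant (`y` is a root of a monic quadratic
polynomial over `κ`, which splits). -/
theorem FG_isConstPt_of_x [IsAlgClosed κ] {x y : L}
    (h : (W.map (algebraMap κ L)).toAffine.Nonsingular x y) (hx : ∃ c : κ, algebraMap κ L c = x) :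
    FG_IsConstPt κ (.some x y h : (W.map (algebraMap κ L)).toAffine.Point) := by
  obtain ⟨c, rfl⟩ := hx
  refine ⟨⟨c, rfl⟩, ?_⟩
  have he := FG_equation W h
  obtain ⟨d₁, hd₁⟩ := IsAlgClosed.exists_root
    (X ^ 2 + C (W.a₁ * c + W.a₃) * X - C (c ^ 3 + W.a₂ * c ^ 2 + W.a₄ * c + W.a₆) : κ[X])
    (by
      have : (X ^ 2 + C (W.a₁ * c + W.a₃) * X - C (c ^ 3 + W.a₂ * c ^ 2 + W.a₄ * c + W.a₆) : κ[X])
          = C 1 * X ^ 2 + C (W.a₁ * c + W.a₃) * X
            + C (-(c ^ 3 + W.a₂ * c ^ 2 + W.a₄ * c + W.a₆)) := by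
        rw [C_neg, C_1]; ring
      rw [this, degree_quadratic one_ne_zero]
      decide)
  have hd : d₁ ^ 2 + (W.a₁ * c + W.a₃) * d₁ = c ^ 3 + W.a₂ * c ^ 2 + W.a₄ * c + W.a₆ := by
    simp only [IsRoot.def, eval_sub, eval_add, eval_pow, eval_X, eval_mul, eval_C] at hd₁
    linear_combination hd₁
  have hd' := congrArg (algebraMap κ L) hd
  simp only [map_add, map_mul, map_pow] at hd'
  have hprod : (y - algebraMap κ L d₁) * (y - algebraMap κ L (-d₁ - W.a₁ * c - W.a₃)) = 0 := by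
    simp only [map_sub, map_neg, map_mul]
    linear_combination he - hd'
  rcases mul_eq_zero.1 hprod with h0 | h0
  · exact ⟨d₁, (sub_eq_zero.1 h0).symm⟩
  · exact ⟨_, (sub_eq_zero.1 h0).symm⟩

/-- `κ` algebraically closed: a point with `x` algebraic over `κ` is constant. -/
theorem FG_isConstPt_of_isAlgebraic [IsAlgClosed κ] {x y : L}
    (h : (W.map (algebraMap κ L)).toAffine.Nonsingular x y) (hx : IsAlgebraic κ x) :
    FG_IsConstPt κ (.some x y h : (W.map (algebraMap κ L)).toAffine.Point) := by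
  apply FG_isConstPt_of_x h
  have hint : IsIntegral κ x := hx.isIntegral
  exact minpoly.mem_range_of_degree_eq_one κ x
    (IsAlgClosed.degree_eq_one_of_irreducible κ (minpoly.irreducible hint))

end base

variable {κ : Type*} [Field κ] {L : Type*} [Field L] [Algebra κ L] [Algebra (RatFunc κ) L]
  [IsScalarTower κ (RatFunc κ) L] {W : WeierstrassCurve κ}

lemma FG_xdeg_of_isConstPt {WL : WeierstrassCurve L} {P : WL.toAffine.Point}
    (hP : FG_IsConstPt κ P) : FG_xdeg κ P = 0 := by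
  rcases P with _ | ⟨x, y, hxy⟩
  · rfl
  · obtain ⟨⟨c, hc⟩, -⟩ := hP
    rw [FG_xdeg_some κ hxy (RatFunc.C c) (by rw [FG_map_C, hc]), rdeg_eq_zero_iff]
    exact ⟨c, rfl⟩

/-- **CONST** -/
theorem FG_isConstPt_of_xdeg [IsAlgClosed κ] {P : (W.map (algebraMap κ L)).toAffine.Point}
    (hP : FG_HasRatX κ P) (hd : FG_xdeg κ P = 0) : FG_IsConstPt κ P := by
  classical
  rcases P with _ | ⟨x, y, hxy⟩
  · trivial
  · obtain ⟨r, hr⟩ := hP
    rw [FG_xdeg_some κ hxy r hr, rdeg_eq_zero_iff] at hd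
    obtain ⟨c, rfl⟩ := hd
    exact FG_isConstPt_of_x hxy ⟨c, by rw [← hr, FG_map_C]⟩

/-- the generic point is not constant -/
lemma FG_eta_not_isConstPt {WL : WeierstrassCurve L} {yy : L}
    (hη : WL.toAffine.Nonsingular (algebraMap (RatFunc κ) L RatFunc.X) yy) :
    ¬ FG_IsConstPt κ (.some _ _ hη : WL.toAffine.Point) := by
  rintro ⟨⟨c, hc⟩, -⟩
  rw [← FG_map_C] at hc
  have h1 : (RatFunc.X : RatFunc κ) = RatFunc.C c :=
    ((algebraMap (RatFunc κ) L).injective hc).symm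
  have h2 : rdeg (RatFunc.X : RatFunc κ) = 0 := (rdeg_eq_zero_iff _).2 ⟨c, h1⟩
  rw [rdeg_X] at h2
  exact one_ne_zero h2

end Fermat.Agent.EL
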