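import Fermat.Agent.EL.FG.CountDefs

/-!
# EL / FG / Count3 : the polynomial `N` for `ℓ = 3`
Suggested proof: write `N = C c₀ + C c₁ * (X - C a) + (X - C a)² * R` with explicit `c₀ c₁ : ZMod 3`
(polynomial expressions in `a, a₁, a₂, a₃, a₄, a₆`) and `R`; then
`(X - C a) ∣ N ↔ c₀ = 0`, `(X - C a)² ∣ N ↔ c₀ = 0 ∧ c₁ = 0`, and the remaining statement about
`a, a₁, …, a₆ : ZMod 3` (`n_a = 2 → c₀ ≠ 0`, `n_a = 1 → c₀ = 0 ∧ c₁ ≠ 0`, `n_a = 0 → c₀ = c₁ = 0`,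
`n_a ≤ 2`, under `Δ ≠ 0`) is a finite check (`decide`, 729 cases).
-/

set_option autoImplicit false

namespace Fermat.Agent.EL

open Polynomial

/-- double roots via the derivative. -/
theorem FGCount3_sq_dvd_iff {k : Type*} [Field k] {P : k[X]} (hP : P ≠ 0) (a : k) :
    (X - C a) ^ 2 ∣ P ↔ P.eval a = 0 ∧ P.derivative.eval a = 0 := by
  rw [← le_rootMultiplicity_iff hP]
  exact one_lt_rootMultiplicity_iff_isRoot hP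

/-- the value `N(a)`. -/
def FGCount3_c0 (a1 a2 a3 a4 a6 a : ZMod 3) : ZMod 3 :=
  ((a ^ 3) ^ 3 + a2 * (a ^ 3) ^ 2 + a4 * a ^ 3 + a6) + (a ^ 3 + a2 * a ^ 2 + a4 * a + a6)
    + ((a1 * a + a3) ^ 4 + 4 * (a1 * a + a3) ^ 2 * (a ^ 3 + a2 * a ^ 2 + a4 * a + a6)
      + 2 * (a ^ 3 + a2 * a ^ 2 + a4 * a + a6) ^ 2)
    - (a2 + a ^ 3 + a) * (a ^ 3 - a) ^ 2

/-- the value `N'(a)`. -/
def FGCount3_c1 (a1 a2 a3 a4 a6 a : ZMod 3) : ZMod 3 :=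
  (9 * a ^ 8 + 6 * a2 * a ^ 5 + 3 * a4 * a ^ 2) + (3 * a ^ 2 + 2 * a2 * a + a4)
    + (4 * (a1 * a + a3) ^ 3 * a1 + 8 * (a1 * a + a3) * a1 * (a ^ 3 + a2 * a ^ 2 + a4 * a + a6)
      + 4 * (a1 * a + a3) ^ 2 * (3 * a ^ 2 + 2 * a2 * a + a4)
      + 4 * (a ^ 3 + a2 * a ^ 2 + a4 * a + a6) * (3 * a ^ 2 + 2 * a2 * a + a4))
    - ((3 * a ^ 2 + 1) * (a ^ 3 - a) ^ 2 + (a2 + a ^ 3 + a) * (2 * (a ^ 3 - a) * (3 * a ^ 2 - 1)))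

set_option maxRecDepth 100000 in
theorem FGCount3_check : ∀ a1 a2 a3 a4 a6 a : ZMod 3,
    (⟨a1, a2, a3, a4, a6⟩ : WeierstrassCurve (ZMod 3)).Δ ≠ 0 →
    FGC_n (⟨a1, a2, a3, a4, a6⟩ : WeierstrassCurve (ZMod 3)) a ≤ 2 ∧
    (FGC_n (⟨a1, a2, a3, a4, a6⟩ : WeierstrassCurve (ZMod 3)) a = 0 →
      FGCount3_c0 a1 a2 a3 a4 a6 a = 0 ∧ FGCount3_c1 a1 a2 a3 a4 a6 a = 0) ∧
    (FGC_n (⟨a1, a2, a3, a4, a6⟩ : WeierstrassCurve (ZMod 3)) a = 1 →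
      FGCount3_c0 a1 a2 a3 a4 a6 a = 0 ∧ FGCount3_c1 a1 a2 a3 a4 a6 a ≠ 0) ∧
    (FGC_n (⟨a1, a2, a3, a4, a6⟩ : WeierstrassCurve (ZMod 3)) a = 2 →
      FGCount3_c0 a1 a2 a3 a4 a6 a ≠ 0) := by
  decide +kernel

theorem FGCount3_expand {k : Type*} [CommRing k] (V : WeierstrassCurve k) :
    FGC_N V 3 = X ^ 7 + (X ^ 5 - X ^ 3 + 2 * C V.a₂ * X ^ 4 - C V.a₂ * X ^ 2 + C V.a₄ * X ^ 3
      + C V.a₆ + (X ^ 3 + C V.a₂ * X ^ 2 + C V.a₄ * X + C V.a₆)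
      + ((C V.a₁ * X + C V.a₃) ^ 4
        + 4 * (C V.a₁ * X + C V.a₃) ^ 2 * (X ^ 3 + C V.a₂ * X ^ 2 + C V.a₄ * X + C V.a₆)
        + 2 * (X ^ 3 + C V.a₂ * X ^ 2 + C V.a₄ * X + C V.a₆) ^ 2)) := by
  simp only [FGC_N, FGC_fq, FGC_f, FGC_T, FGC_s]
  ring

theorem FGCount3_natDegree {k : Type*} [CommRing k] [Nontrivial k] (V : WeierstrassCurve k) :
    (FGC_N V 3).natDegree = 7 := by
  rw [FGCount3_expand, natDegree_add_eq_left_of_natDegree_lt, natDegree_X_pow]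
  rw [natDegree_X_pow]
  refine Nat.lt_succ_of_le ?_
  compute_degree

theorem FGCount3_eval (a1 a2 a3 a4 a6 a : ZMod 3) :
    (FGC_N (⟨a1, a2, a3, a4, a6⟩ : WeierstrassCurve (ZMod 3)) 3).eval a
      = FGCount3_c0 a1 a2 a3 a4 a6 a := by
  simp only [FGC_N, FGC_fq, FGC_f, FGC_T, FGC_s, FGCount3_c0, eval_add, eval_sub, eval_mul,
    eval_pow, eval_X, eval_C, eval_neg, eval_ofNat]
  ring

theorem FGCount3_deriv (a1 a2 a3 a4 a6 a : ZMod 3) :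
    (derivative (FGC_N (⟨a1, a2, a3, a4, a6⟩ : WeierstrassCurve (ZMod 3)) 3)).eval a
      = FGCount3_c1 a1 a2 a3 a4 a6 a := by
  simp only [FGC_N, FGC_fq, FGC_f, FGC_T, FGC_s, FGCount3_c1, derivative_add, derivative_sub,
    derivative_mul, derivative_pow, derivative_X, derivative_C, derivative_neg,
    derivative_ofNat, eval_add, eval_sub, eval_mul,
    eval_pow, eval_X, eval_C, eval_neg, eval_ofNat, eval_zero, eval_one]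
  push_cast
  ring

theorem FGC_three (V : WeierstrassCurve (ZMod 3)) (hΔ : V.Δ ≠ 0) :
    (FGC_N V 3).natDegree = 7 ∧ ∀ a : ZMod 3, FGC_n V a ≤ 2 ∧
      (X - C a) ^ (2 - FGC_n V a) ∣ FGC_N V 3 ∧
      (2 - FGC_n V a < 2 → ¬ (X - C a) ^ (2 - FGC_n V a + 1) ∣ FGC_N V 3) := by
  have : Fact (Nat.Prime 3) := ⟨Nat.prime_three⟩
  have hdeg := FGCount3_natDegree V
  refine ⟨hdeg, fun a => ?_⟩
  have hN0 : FGC_N V 3 ≠ 0 := by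
    intro h
    rw [h, natDegree_zero] at hdeg
    omega
  obtain ⟨a1, a2, a3, a4, a6⟩ := V
  obtain ⟨hle, h0, h1, h2⟩ := FGCount3_check a1 a2 a3 a4 a6 a hΔ
  have hsq := FGCount3_sq_dvd_iff hN0 a
  rw [FGCount3_eval, FGCount3_deriv] at hsq
  have hone : (X - C a) ∣ FGC_N (⟨a1, a2, a3, a4, a6⟩ : WeierstrassCurve (ZMod 3)) 3 ↔
      FGCount3_c0 a1 a2 a3 a4 a6 a = 0 := by
    rw [dvd_iff_isRoot, IsRoot.def, FGCount3_eval]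
  refine ⟨hle, ?_⟩
  generalize FGC_n (⟨a1, a2, a3, a4, a6⟩ : WeierstrassCurve (ZMod 3)) a = n at hle h0 h1 h2 ⊢
  interval_cases n
  · exact ⟨hsq.mpr (h0 rfl), fun h => absurd h (lt_irrefl _)⟩
  · refine ⟨?_, fun _ h => ?_⟩
    · rw [show 2 - 1 = 1 from rfl, pow_one]
      exact hone.mpr (h1 rfl).1
    · exact (h1 rfl).2 (hsq.mp h).2
  · refine ⟨?_, fun _ h => ?_⟩
    · rw [show 2 - 2 = 0 from rfl, pow_zero]
      exact one_dvd _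
    · rw [show 2 - 2 + 1 = 1 from rfl, pow_one] at h
      exact h2 rfl (hone.mp h)

end Fermat.Agent.EL
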