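import Fermat.Agent.EL.FG.CountDefs

/-!
# EL / FG / CountAlg : the algebra behind `x(Φ η - η) = N / (X^q - X)²`
-/

set_option autoImplicit false

namespace Fermat.Agent.EL

open Polynomial

/-- power sums: if `y + y' = -s`, `y y' = -f` then `T_n ↦ y^n + y'^n`. -/
theorem FGC_T_map {k R : Type*} [CommRing k] [CommRing R] (V : WeierstrassCurve k) (ι : k[X] →+* R)
    (y y' : R) (h1 : y + y' = - ι (FGC_s V)) (h2 : y * y' = - ι (FGC_f V)) (n : ℕ) :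
    ι (FGC_T V n) = y ^ n + y' ^ n := by
  induction n using Nat.twoStepInduction with
  | zero =>
    rw [FGC_T, pow_zero, pow_zero, map_ofNat]
    norm_num
  | one => rw [FGC_T, map_neg, pow_one, pow_one, h1]
  | more n ih0 ih1 =>
    rw [FGC_T, map_add, map_mul, map_mul, map_neg, ih0, ih1]
    linear_combination (-(y ^ (n + 1) + y' ^ (n + 1))) * h1 + (y ^ n + y' ^ n) * h2

/-- `φ` = the `q`-power map, a ring homomorphism fixing the coefficients.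
With `Y = y^q`, `y' = -y - a₁ x - a₃`, `Y' = y'^q = -Y - a₁ x^q - a₃`, `h = x^q - x`:
`(Y - y')² + a₁ h (Y - y') = f(x^q) + f(x) + y^(q+1) + y'^(q+1)`
[use `Y² + (a₁ x^q + a₃) Y = f(x^q)` (`φ` applied to `e`), `y'² + (a₁ x + a₃) y' = f(x)`,
`y^(q+1) = Y y`, `y'^(q+1) = Y' y'`]. -/
theorem FGC_addX {L : Type*} [Field L] (q : ℕ) (φ : L →+* L) (hφ : ∀ x, φ x = x ^ q)
    (a₁ a₂ a₃ a₄ a₆ x y : L) (h₁ : φ a₁ = a₁) (h₂ : φ a₂ = a₂) (h₃ : φ a₃ = a₃) (h₄ : φ a₄ = a₄)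
    (h₆ : φ a₆ = a₆)
    (e : y ^ 2 + (a₁ * x + a₃) * y = x ^ 3 + a₂ * x ^ 2 + a₄ * x + a₆) (hne : x ^ q - x ≠ 0) :
    ((y ^ q - (-y - a₁ * x - a₃)) / (x ^ q - x)) ^ 2
        + a₁ * ((y ^ q - (-y - a₁ * x - a₃)) / (x ^ q - x)) - a₂ - x ^ q - x
      = (((x ^ q) ^ 3 + a₂ * (x ^ q) ^ 2 + a₄ * x ^ q + a₆) + (x ^ 3 + a₂ * x ^ 2 + a₄ * x + a₆)
          + (y ^ (q + 1) + (-y - a₁ * x - a₃) ^ (q + 1))
          - (a₂ + x ^ q + x) * (x ^ q - x) ^ 2) / (x ^ q - x) ^ 2 := by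
  have hY' : (-y - a₁ * x - a₃) ^ q = -y ^ q - a₁ * x ^ q - a₃ := by
    rw [← hφ, map_sub, map_sub, map_neg, map_mul, h₁, h₃, hφ x, hφ y]
  have E2 : (y ^ q) ^ 2 + (a₁ * x ^ q + a₃) * y ^ q =
      (x ^ q) ^ 3 + a₂ * (x ^ q) ^ 2 + a₄ * x ^ q + a₆ := by
    have h := congrArg φ e
    simp only [map_add, map_mul, map_pow, h₁, h₂, h₃, h₄, h₆] at h
    rw [hφ x, hφ y] at h
    exact h
  rw [pow_succ y q, pow_succ (-y - a₁ * x - a₃) q, hY']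
  generalize y ^ q = Y at *
  generalize x ^ q = X' at *
  field_simp
  linear_combination e + E2

end Fermat.Agent.EL
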