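import Fermat.Agent.EL.FG.CountDefs

/-!
# EL / FG / CountPts : `#V(𝔽_ℓ) = 1 + ∑_a n_a`
-/

set_option autoImplicit false

namespace Fermat.Agent.EL

open Polynomial WeierstrassCurve

lemma FGCountPts_eqn {k : Type*} [CommRing k] (V : WeierstrassCurve k) (x y : k) :
    V.toAffine.Equation x y ↔
      y ^ 2 + (V.a₁ * x + V.a₃) * y = x ^ 3 + V.a₂ * x ^ 2 + V.a₄ * x + V.a₆ := by
  rw [Affine.equation_iff]
  constructor <;> intro h <;> linear_combination h

/-- points as pairs -/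
noncomputable def FGCountPts_equiv {k : Type*} [Field k] (V : WeierstrassCurve k) (hΔ : V.Δ ≠ 0) :
    V.toAffine.Point ≃ Option (Σ a : k,
      {y : k // y ^ 2 + (V.a₁ * a + V.a₃) * y = a ^ 3 + V.a₂ * a ^ 2 + V.a₄ * a + V.a₆}) where
  toFun P := match P with
    | 0 => none
    | .some x y h => some ⟨x, y, (FGCountPts_eqn V x y).1 h.1⟩
  invFun q := match q with
    | none => 0
    | some ⟨a, b, hb⟩ =>
      .some a b ((Affine.equation_iff_nonsingular_of_Δ_ne_zero hΔ).1 ((FGCountPts_eqn V a b).2 hb))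
  left_inv P := by
    rcases P with _ | ⟨x, y, h⟩ <;> rfl
  right_inv q := by
    rcases q with _ | ⟨a, b, hb⟩ <;> rfl

theorem FGC_card_points (ℓ : ℕ) [Fact ℓ.Prime] (V : WeierstrassCurve (ZMod ℓ)) (hΔ : V.Δ ≠ 0) :
    Nat.card V.toAffine.Point = 1 + ∑ a, FGC_n V a := by
  rw [Nat.card_congr (FGCountPts_equiv V hΔ), Nat.card_eq_fintype_card, Fintype.card_option,
    Fintype.card_sigma, add_comm]
  congr 1
  refine Finset.sum_congr rfl fun a _ => ?_
  rw [Fintype.card_subtype, FGC_n]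

end Fermat.Agent.EL
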