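import Fermat.Agent.S52.FB.CountPoly

/-!
# EL / FG / CountRdeg : the degree of `N / ∏ (X - a)²` after a base field extension `k → κ`
-/

set_option autoImplicit false

namespace Fermat.Agent.EL

open Fermat.Agent.S52 Polynomial

theorem FGC_rdeg {k κ : Type*} [Field k] [Fintype k] [Field κ] (i : k →+* κ) (N : k[X])
    (e : k → ℕ) (he : ∀ a, e a ≤ 2) (h1 : ∀ a, (X - C a) ^ (e a) ∣ N)
    (h2 : ∀ a, e a < 2 → ¬ (X - C a) ^ (e a + 1) ∣ N)
    (hN : N.natDegree = 2 * Fintype.card k + 1) :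
    rdeg (algebraMap κ[X] (RatFunc κ) (N.map i) /
      algebraMap κ[X] (RatFunc κ) (((∏ a, (X - C a)) ^ 2 : k[X]).map i))
      = 1 + ∑ a, (2 - e a) := by
  obtain ⟨N', hN', hcop⟩ := Count_coprime_aux N e h1 h2
  set G : k[X] := ∏ a, (X - C a) ^ (e a) with hG
  set D' : k[X] := ∏ a, (X - C a) ^ (2 - e a) with hD'
  have hG0 : G ≠ 0 := Finset.prod_ne_zero_iff.2 fun a _ => pow_ne_zero _ (X_sub_C_ne_zero a)
  have hD'0 : D' ≠ 0 := Finset.prod_ne_zero_iff.2 fun a _ => pow_ne_zero _ (X_sub_C_ne_zero a)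
  have hD : (∏ a, (X - C a) : k[X]) ^ 2 = G * D' := by
    rw [hG, hD', ← Finset.prod_mul_distrib, ← Finset.prod_pow]
    refine Finset.prod_congr rfl fun a _ => ?_
    rw [← pow_add, Nat.add_sub_cancel' (he a)]
  have hN0 : N ≠ 0 := by
    intro h
    rw [h, natDegree_zero] at hN
    omega
  have hN'0 : N' ≠ 0 := by
    rintro rfl
    exact hN0 (by rw [hN', mul_zero])
  have hGi : G.map i ≠ 0 := (Polynomial.map_ne_zero_iff i.injective).2 hG0
  have hD'i : D'.map i ≠ 0 := (Polynomial.map_ne_zero_iff i.injective).2 hD'0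
  have hq : algebraMap κ[X] (RatFunc κ) (N.map i) /
      algebraMap κ[X] (RatFunc κ) (((∏ a, (X - C a)) ^ 2 : k[X]).map i)
      = algebraMap κ[X] (RatFunc κ) (N'.map i) / algebraMap κ[X] (RatFunc κ) (D'.map i) := by
    rw [hD, hN', Polynomial.map_mul, Polynomial.map_mul, map_mul, map_mul]
    have : algebraMap κ[X] (RatFunc κ) (G.map i) ≠ 0 := by
      simpa using hGi
    exact mul_div_mul_left _ _ this
  have hcop' : IsCoprime (N'.map i) (D'.map i) := hcop.map (Polynomial.mapRingHom i)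
  rw [hq, rdeg_div _ _ hD'i hcop', natDegree_map, natDegree_map]
  have e1 : N.natDegree = G.natDegree + N'.natDegree := by
    rw [hN', natDegree_mul hG0 hN'0]
  have e2 : G.natDegree = ∑ a, e a := Count_natDegree_prod e
  have e3 : D'.natDegree = ∑ a, (2 - e a) := Count_natDegree_prod _
  have e4 : ∑ a, e a + ∑ a, (2 - e a) = 2 * Fintype.card k := by
    rw [← Finset.sum_add_distrib, Finset.sum_congr rfl fun a _ => Nat.add_sub_cancel' (he a)]
    simp [mul_comm]
  rw [e3]
  omega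

end Fermat.Agent.EL
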