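import Fermat.Agent.EL.FG.Defs
import Fermat.Agent.EL.FG.CountAlg
import Fermat.Agent.EL.FG.CountRdeg
import Fermat.Agent.EL.FG.Count2
import Fermat.Agent.EL.FG.Count3
import Fermat.Agent.EL.FG.CountPts

/-!
# EL / FG / Count : `deg (Φ - 1) = #V(𝔽_ℓ)` for `ℓ = 2, 3`
Template: `xdeg_frob_sub` in `Fermat/Agent/S52/FB/Count.lean`.
-/

set_option autoImplicit false
set_option linter.unusedSectionVars false

namespace Fermat.Agent.EL

open Fermat.Agent.S52 WeierstrassCurve Polynomial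

/-- change of the abscissa along an equality -/
lemma FGCount_some_of_eq {L : Type*} [Field L] {WL : WeierstrassCurve L} {x x' y : L}
    {h : WL.toAffine.Nonsingular x y} (e : x = x') :
    ∃ (y' : L) (h' : WL.toAffine.Nonsingular x' y'),
      (.some x y h : WL.toAffine.Point) = .some x' y' h' := by
  subst e
  exact ⟨y, h, rfl⟩

/-- the degree of `N / (X^ℓ - X)²` over `κ` -/
theorem FGC_rdeg_N (ℓ : ℕ) [Fact ℓ.Prime] (hℓ : ℓ = 2 ∨ ℓ = 3) (V : WeierstrassCurve (ZMod ℓ))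
    (hΔ : V.Δ ≠ 0) {κ : Type*} [Field κ] (i : ZMod ℓ →+* κ) :
    rdeg (algebraMap κ[X] (RatFunc κ) ((FGC_N V ℓ).map i) /
      algebraMap κ[X] (RatFunc κ) (((X ^ ℓ - X) ^ 2 : (ZMod ℓ)[X]).map i))
      = Nat.card V.toAffine.Point := by
  have hkey : (FGC_N V ℓ).natDegree = 2 * ℓ + 1 ∧ ∀ a : ZMod ℓ, FGC_n V a ≤ 2 ∧
      (X - C a) ^ (2 - FGC_n V a) ∣ FGC_N V ℓ ∧
      (2 - FGC_n V a < 2 → ¬ (X - C a) ^ (2 - FGC_n V a + 1) ∣ FGC_N V ℓ) := by
    rcases hℓ with rfl | rfl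
    · exact FGC_two V hΔ
    · exact FGC_three V hΔ
  obtain ⟨hdeg, hall⟩ := hkey
  rw [← Count_prod_X_sub_C, FGC_rdeg i (FGC_N V ℓ) (fun a => 2 - FGC_n V a) (fun a => by omega)
    (fun a => (hall a).2.1) (fun a => (hall a).2.2) (by rw [hdeg, ZMod.card]),
    FGC_card_points ℓ V hΔ]
  congr 1
  refine Finset.sum_congr rfl fun a _ => ?_
  have := (hall a).1
  omega

/-- `x(Φ η - η) = N / (X^ℓ - X)²` -/
theorem FGC_x_frob_sub (ℓ : ℕ) [Fact ℓ.Prime] (V : WeierstrassCurve (ZMod ℓ))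
    {κ : Type*} [Field κ] [Algebra (ZMod ℓ) κ] {L : Type*} [Field L] [Algebra κ L]
    [Algebra (RatFunc κ) L] [IsScalarTower κ (RatFunc κ) L] [DecidableEq L]
    {W : WeierstrassCurve κ} (hV : V.map (algebraMap (ZMod ℓ) κ) = W)
    (φ : L →+* L) (hφ : ∀ x, φ x = x ^ ℓ)
    (hφW : (W.map (algebraMap κ L)).map φ = W.map (algebraMap κ L)) {yy : L}
    (hη : (W.map (algebraMap κ L)).toAffine.Nonsingular (algebraMap (RatFunc κ) L RatFunc.X) yy) :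
    ∃ (y : L) (h : (W.map (algebraMap κ L)).toAffine.Nonsingular
        (algebraMap (RatFunc κ) L
          (algebraMap κ[X] (RatFunc κ) ((FGC_N V ℓ).map (algebraMap (ZMod ℓ) κ)) /
          algebraMap κ[X] (RatFunc κ) (((X ^ ℓ - X) ^ 2 : (ZMod ℓ)[X]).map
            (algebraMap (ZMod ℓ) κ)))) y),
      mapPt φ hφW (.some _ _ hη) - (.some _ _ hη : (W.map (algebraMap κ L)).toAffine.Point)
        = .some _ y h := by
  subst hV
  set xx : L := algebraMap (RatFunc κ) L RatFunc.X with hxx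
  set j : ZMod ℓ →+* L := (algebraMap κ L).comp (algebraMap (ZMod ℓ) κ) with hj
  -- the ring hom `𝔽_ℓ[X] → L`
  set ι : (ZMod ℓ)[X] →+* L :=
    (algebraMap (RatFunc κ) L).comp ((algebraMap κ[X] (RatFunc κ)).comp
      (Polynomial.mapRingHom (algebraMap (ZMod ℓ) κ))) with hι
  have hιX : ι X = xx := by
    simp [hι, hxx, RatFunc.algebraMap_X]
  have hιC : ∀ c : ZMod ℓ, ι (C c) = j c := by
    intro c
    simp only [hι, hj, RingHom.comp_apply, coe_mapRingHom, map_C, RatFunc.algebraMap_C]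
    rw [FG_map_C]
  have hιinj : Function.Injective ι :=
    (algebraMap (RatFunc κ) L).injective.comp ((RatFunc.algebraMap_injective κ).comp
      (Polynomial.map_injective _ (algebraMap (ZMod ℓ) κ).injective))
  have hφj : ∀ c : ZMod ℓ, φ (j c) = j c := by
    intro c
    rw [hφ, ← map_pow, ZMod.pow_card]
  have heq : yy ^ 2 + (j V.a₁ * xx + j V.a₃) * yy
      = xx ^ 3 + j V.a₂ * xx ^ 2 + j V.a₄ * xx + j V.a₆ := by
    have := FG_equation _ hη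
    simp only [map_a₁, map_a₂, map_a₃, map_a₄, map_a₆] at this
    exact this
  have hne : xx ^ ℓ - xx ≠ 0 := by
    have : ι (X ^ ℓ - X) ≠ 0 := by
      rw [Ne, map_eq_zero_iff ι hιinj]
      exact FiniteField.X_pow_card_sub_X_ne_zero _ (Fact.out : ℓ.Prime).one_lt
    simpa [hιX] using this
  have hxne : φ xx ≠ xx := by
    rw [hφ]
    exact sub_ne_zero.1 hne
  rw [sub_eq_add_neg (mapPt φ hφW (.some _ _ hη)), mapPt_some, Affine.Point.neg_some,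
    Affine.Point.add_some (fun h => hxne h.1)]
  apply FGCount_some_of_eq
  rw [Affine.slope_of_X_ne hxne, map_div₀]
  change _ = ι (FGC_N V ℓ) / ι ((X ^ ℓ - X) ^ 2)
  have hs : ι (FGC_s V) = j V.a₁ * xx + j V.a₃ := by
    simp only [FGC_s, map_add, map_mul, hιX, hιC]
  have hf : ι (FGC_f V) = xx ^ 3 + j V.a₂ * xx ^ 2 + j V.a₄ * xx + j V.a₆ := by
    simp only [FGC_f, map_add, map_mul, map_pow, hιX, hιC]
  have hT := FGC_T_map V ι yy (-yy - j V.a₁ * xx - j V.a₃)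
    (by rw [hs]; ring) (by rw [hf]; linear_combination -heq) (ℓ + 1)
  have hN : ι (FGC_N V ℓ) = (((xx ^ ℓ) ^ 3 + j V.a₂ * (xx ^ ℓ) ^ 2 + j V.a₄ * xx ^ ℓ + j V.a₆)
      + (xx ^ 3 + j V.a₂ * xx ^ 2 + j V.a₄ * xx + j V.a₆)
      + (yy ^ (ℓ + 1) + (-yy - j V.a₁ * xx - j V.a₃) ^ (ℓ + 1))
      - (j V.a₂ + xx ^ ℓ + xx) * (xx ^ ℓ - xx) ^ 2) := by
    rw [FGC_N, map_sub, map_add, map_add, hT, hf]
    simp only [FGC_fq, map_add, map_mul, map_pow, map_sub, hιX, hιC]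
  have hD : ι ((X ^ ℓ - X) ^ 2) = (xx ^ ℓ - xx) ^ 2 := by
    simp only [map_pow, map_sub, hιX]
  rw [hN, hD, ← FGC_addX ℓ φ hφ (j V.a₁) (j V.a₂) (j V.a₃) (j V.a₄) (j V.a₆) xx yy (hφj _) (hφj _)
    (hφj _) (hφj _) (hφj _) heq hne]
  simp only [Affine.addX, Affine.negY, map_a₁, map_a₂, map_a₃, hφ]
  rfl

/-- `deg (Φ - 1) = #V(𝔽_ℓ)`. -/
theorem FG_xdeg_frob_sub (ℓ : ℕ) [Fact ℓ.Prime] (hℓ : ℓ = 2 ∨ ℓ = 3)
    (V : WeierstrassCurve (ZMod ℓ)) (hΔ : V.Δ ≠ 0)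
    {κ : Type*} [Field κ] [Algebra (ZMod ℓ) κ] {L : Type*} [Field L] [Algebra κ L]
    [Algebra (RatFunc κ) L] [IsScalarTower κ (RatFunc κ) L] [DecidableEq L]
    {W : WeierstrassCurve κ} (hV : V.map (algebraMap (ZMod ℓ) κ) = W)
    (φ : L →+* L) (hφ : ∀ x, φ x = x ^ ℓ)
    (hφW : (W.map (algebraMap κ L)).map φ = W.map (algebraMap κ L)) {yy : L}
    (hη : (W.map (algebraMap κ L)).toAffine.Nonsingular (algebraMap (RatFunc κ) L RatFunc.X) yy) :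
    FG_xdeg κ (mapPt φ hφW (.some _ _ hη)
      - (.some _ _ hη : (W.map (algebraMap κ L)).toAffine.Point)) = Nat.card V.toAffine.Point := by
  obtain ⟨y, h, e⟩ := FGC_x_frob_sub ℓ V hV φ hφ hφW hη
  rw [e, FG_xdeg_some κ h _ rfl, FGC_rdeg_N ℓ hℓ V hΔ]

end Fermat.Agent.EL
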