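import Mathlib

/-!
# EL / FG / CountDefs : the numerator `N` of `x(Φ η - η)`
`s = a₁ X + a₃`, `f = X³ + a₂ X² + a₄ X + a₆`, `f_q = f(X^q)`, `T_n = yy^n + yy'^n` (power sums of
the two roots of `Y² + s Y - f`), `N = f_q + f + T_{q+1} - (a₂ + X^q + X) (X^q - X)²`.
-/

set_option autoImplicit false

namespace Fermat.Agent.EL

open Polynomial

section
variable {k : Type*} [CommRing k] (V : WeierstrassCurve k)

noncomputable def FGC_s : k[X] := C V.a₁ * X + C V.a₃

noncomputable def FGC_f : k[X] := X ^ 3 + C V.a₂ * X ^ 2 + C V.a₄ * X + C V.a₆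

noncomputable def FGC_fq (q : ℕ) : k[X] :=
  (X ^ q) ^ 3 + C V.a₂ * (X ^ q) ^ 2 + C V.a₄ * X ^ q + C V.a₆

/-- power sums of the roots of `Y² + s Y - f` -/
noncomputable def FGC_T : ℕ → k[X]
  | 0 => 2
  | 1 => - FGC_s V
  | (n + 2) => - FGC_s V * FGC_T (n + 1) + FGC_f V * FGC_T n

/-- realise the equation lemmas of `FGC_T` in the defining module (so that they are not generated
independently, with different proof terms, in several downstream modules). -/
theorem FGC_T_realise {k' : Type*} [CommRing k'] (V' : WeierstrassCurve k') : True := by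
  have _h0 := FGC_T.eq_def V'
  have _h1 := FGC_T.eq_1 V'
  have _h2 := FGC_T.eq_2 V'
  have _h3 := FGC_T.eq_3 V'
  trivial

noncomputable def FGC_N (q : ℕ) : k[X] :=
  FGC_fq V q + FGC_f V + FGC_T V (q + 1) - (C V.a₂ + X ^ q + X) * (X ^ q - X) ^ 2

end

/-- the number of points of `V(𝔽_ℓ)` above `x = a` -/
def FGC_n {ℓ : ℕ} [NeZero ℓ] (V : WeierstrassCurve (ZMod ℓ)) (a : ZMod ℓ) : ℕ :=
  (Finset.univ.filter fun y : ZMod ℓ =>
    y ^ 2 + (V.a₁ * a + V.a₃) * y = a ^ 3 + V.a₂ * a ^ 2 + V.a₄ * a + V.a₆).card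

end Fermat.Agent.EL
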