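import Fermat.Agent.S52.FB.RatDeg
import Fermat.Agent.EL.MapPt

/-!
# EL / FG / Defs : shared definitions for the Frobenius equation on a general Weierstrass curve

`κ` a field (algebraically closed in the application), `K = RatFunc κ`, `W` a Weierstrass curve
over `κ`, `L = K(yy)` the function field of `W` (`yy ^ 2 + s yy = f`, `s = a₁ X + a₃`,
`f = X³ + a₂ X² + a₄ X + a₆`), axiomatised by `FG_IsGen`.
A point of `W(L)` whose `x`-coordinate lies in `K` has a degree `FG_xdeg`.
-/

set_option autoImplicit false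

namespace Fermat.Agent.EL

open Fermat.Agent.S52 WeierstrassCurve Polynomial

section defs
variable (κ : Type*) [Field κ] {L : Type*} [Field L] [Algebra (RatFunc κ) L]
  {WL : WeierstrassCurve L}

/-- The `x`-coordinate of `P` is a rational function (or `P = 0`). -/
def FG_HasRatX : WL.toAffine.Point → Prop
  | 0 => True
  | .some x _ _ => ∃ r : RatFunc κ, algebraMap (RatFunc κ) L r = x

open Classical in
/-- The degree of the `x`-coordinate of `P` (`0` for `P = 0`, junk `0` if `x ∉ K`). -/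
noncomputable def FG_xdeg : WL.toAffine.Point → ℕ
  | 0 => 0
  | .some x _ _ =>
    if h : ∃ r : RatFunc κ, algebraMap (RatFunc κ) L r = x then rdeg h.choose else 0

lemma FG_hasRatX_zero : FG_HasRatX κ (0 : WL.toAffine.Point) := trivial

lemma FG_hasRatX_some {x y : L} (h : WL.toAffine.Nonsingular x y) :
    FG_HasRatX κ (.some x y h : WL.toAffine.Point) ↔
      ∃ r : RatFunc κ, algebraMap (RatFunc κ) L r = x := Iff.rfl

lemma FG_xdeg_zero : FG_xdeg κ (0 : WL.toAffine.Point) = 0 := rfl

lemma FG_xdeg_some {x y : L} (h : WL.toAffine.Nonsingular x y) (r : RatFunc κ)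
    (hr : algebraMap (RatFunc κ) L r = x) :
    FG_xdeg κ (.some x y h : WL.toAffine.Point) = rdeg r := by
  have hex : ∃ r : RatFunc κ, algebraMap (RatFunc κ) L r = x := ⟨r, hr⟩
  have h1 : FG_xdeg κ (.some x y h : WL.toAffine.Point) = rdeg hex.choose := by
    unfold FG_xdeg
    exact dif_pos hex
  rw [h1]
  congr 1
  exact (algebraMap (RatFunc κ) L).injective (hex.choose_spec.trans hr.symm)

lemma FG_xdeg_neg (P : WL.toAffine.Point) : FG_xdeg κ (-P) = FG_xdeg κ P := by
  rcases P with _ | ⟨x, y, hxy⟩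
  · rfl
  · rw [Affine.Point.neg_some]
    rfl

lemma FG_hasRatX_neg {P : WL.toAffine.Point} (h : FG_HasRatX κ P) : FG_HasRatX κ (-P) := by
  rcases P with _ | ⟨x, y, hxy⟩
  · trivial
  · rw [Affine.Point.neg_some]
    exact h

end defs

section gen
variable {κ : Type*} [Field κ]

/-- `s = a₁ X + a₃` -/
noncomputable def FG_s (W : WeierstrassCurve κ) : RatFunc κ :=
  RatFunc.C W.a₁ * RatFunc.X + RatFunc.C W.a₃

/-- `f = X³ + a₂ X² + a₄ X + a₆` -/
noncomputable def FG_f (W : WeierstrassCurve κ) : RatFunc κ :=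
  RatFunc.X ^ 3 + RatFunc.C W.a₂ * RatFunc.X ^ 2 + RatFunc.C W.a₄ * RatFunc.X + RatFunc.C W.a₆

/-- `L = K(yy)` is the function field of `W`: `yy² + s yy = f`, `L = K + K yy`, and `L` has the
universal property of `K[Y] / (Y² + s Y - f)` (with respect to maps to `L` itself). -/
structure FG_IsGen (W : WeierstrassCurve κ) (L : Type*) [Field L] [Algebra (RatFunc κ) L]
    (yy : L) : Prop where
  eqn : yy ^ 2 + algebraMap (RatFunc κ) L (FG_s W) * yy = algebraMap (RatFunc κ) L (FG_f W)
  span : ∀ z : L, ∃ A B : RatFunc κ,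
    z = algebraMap (RatFunc κ) L A + algebraMap (RatFunc κ) L B * yy
  lift : ∀ (σ : RatFunc κ →+* L) (y : L), y ^ 2 + σ (FG_s W) * y = σ (FG_f W) →
    ∃ T : L →+* L, (∀ r, T (algebraMap (RatFunc κ) L r) = σ r) ∧ T yy = y

section base
variable {L : Type*} [Field L] [Algebra κ L]

/-- a ring homomorphism fixing `κ` fixes the curve -/
lemma FG_map_fix (W : WeierstrassCurve κ) {M : Type*} [Field M] [Algebra κ M] (T : L →+* M)
    (hT : ∀ c : κ, T (algebraMap κ L c) = algebraMap κ M c) :
    (W.map (algebraMap κ L)).map T = W.map (algebraMap κ M) := by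
  rw [WeierstrassCurve.map_map]
  congr 1
  exact RingHom.ext hT

lemma FG_equation_iff (W : WeierstrassCurve κ) {x y : L} :
    (W.map (algebraMap κ L)).toAffine.Equation x y ↔
    y ^ 2 + (algebraMap κ L W.a₁ * x + algebraMap κ L W.a₃) * y
      = x ^ 3 + algebraMap κ L W.a₂ * x ^ 2 + algebraMap κ L W.a₄ * x + algebraMap κ L W.a₆ := by
  rw [Affine.equation_iff]
  simp only [map_a₁, map_a₂, map_a₃, map_a₄, map_a₆]
  constructor <;> intro h <;> linear_combination h

/-- the equation of a point of `W(L)` -/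
lemma FG_equation (W : WeierstrassCurve κ) {x y : L}
    (h : (W.map (algebraMap κ L)).toAffine.Nonsingular x y) :
    y ^ 2 + (algebraMap κ L W.a₁ * x + algebraMap κ L W.a₃) * y
      = x ^ 3 + algebraMap κ L W.a₂ * x ^ 2 + algebraMap κ L W.a₄ * x + algebraMap κ L W.a₆ :=
  (FG_equation_iff W).1 h.1

lemma FG_negY (W : WeierstrassCurve κ) (x y : L) :
    (W.map (algebraMap κ L)).toAffine.negY x y
      = -y - algebraMap κ L W.a₁ * x - algebraMap κ L W.a₃ := by
  simp only [Affine.negY, map_a₁, map_a₃]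

lemma FG_Δ_ne_zero {W : WeierstrassCurve κ} (hΔ : W.Δ ≠ 0) : (W.map (algebraMap κ L)).Δ ≠ 0 := by
  rw [map_Δ, Ne, map_eq_zero]
  exact hΔ

/-- on an elliptic curve, every solution of the equation is a point -/
lemma FG_nonsingular {W : WeierstrassCurve κ} (hΔ : W.Δ ≠ 0) {x y : L}
    (h : y ^ 2 + (algebraMap κ L W.a₁ * x + algebraMap κ L W.a₃) * y
      = x ^ 3 + algebraMap κ L W.a₂ * x ^ 2 + algebraMap κ L W.a₄ * x + algebraMap κ L W.a₆) :
    (W.map (algebraMap κ L)).toAffine.Nonsingular x y :=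
  (Affine.equation_iff_nonsingular_of_Δ_ne_zero (FG_Δ_ne_zero hΔ)).1 ((FG_equation_iff W).2 h)

end base

variable {L : Type*} [Field L] [Algebra κ L] [Algebra (RatFunc κ) L]
  [IsScalarTower κ (RatFunc κ) L]

lemma FG_map_C (c : κ) : algebraMap (RatFunc κ) L (RatFunc.C c) = algebraMap κ L c := by
  rw [← RatFunc.algebraMap_eq_C, ← IsScalarTower.algebraMap_apply]

lemma FG_map_s (W : WeierstrassCurve κ) : algebraMap (RatFunc κ) L (FG_s W)
    = algebraMap κ L W.a₁ * algebraMap (RatFunc κ) L RatFunc.X + algebraMap κ L W.a₃ := by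
  simp only [FG_s, map_add, map_mul, FG_map_C]

lemma FG_map_f (W : WeierstrassCurve κ) : algebraMap (RatFunc κ) L (FG_f W)
    = (algebraMap (RatFunc κ) L RatFunc.X) ^ 3
      + algebraMap κ L W.a₂ * (algebraMap (RatFunc κ) L RatFunc.X) ^ 2
      + algebraMap κ L W.a₄ * algebraMap (RatFunc κ) L RatFunc.X + algebraMap κ L W.a₆ := by
  simp only [FG_f, map_add, map_mul, map_pow, FG_map_C]

/-- the generic point `η = (X, yy)` is a point of `W(L)` -/
lemma FG_eta_nonsingular {W : WeierstrassCurve κ} (hΔ : W.Δ ≠ 0) {yy : L} (hg : FG_IsGen W L yy) :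
    (W.map (algebraMap κ L)).toAffine.Nonsingular (algebraMap (RatFunc κ) L RatFunc.X) yy := by
  apply FG_nonsingular hΔ
  have := hg.eqn
  rw [FG_map_s, FG_map_f] at this
  exact this

end gen

end Fermat.Agent.EL
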