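import Fermat.Agent.EL.Div2
import Fermat.Agent.EL.XForm

/-!
# EL / FG / Div2 : `W(F)` is `2`-divisible, `F` algebraically closed of ANY characteristic
Template: `Fermat/Agent/EL/Div2.lean` (`Div2_exists_root` is reused).
-/

set_option autoImplicit false

namespace Fermat.Agent.EL

open WeierstrassCurve

/-- a monic quadratic has a root. -/
theorem FGDiv2_exists_root {F : Type*} [Field F] [IsAlgClosed F] (b c : F) :
    ∃ y : F, y ^ 2 + b * y + c = 0 := by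
  have hdeg : (Polynomial.X ^ 2 + Polynomial.C b * Polynomial.X + Polynomial.C c :
      Polynomial F).degree ≠ 0 := by
    have h : (Polynomial.X ^ 2 + Polynomial.C b * Polynomial.X + Polynomial.C c :
      Polynomial F).degree = 2 := by
      compute_degree!
    rw [h]
    norm_num
  obtain ⟨y, hy⟩ := IsAlgClosed.exists_root _ hdeg
  refine ⟨y, ?_⟩
  simpa [Polynomial.IsRoot.def] using hy

/-- `P = (x₀, y₀)`.  The monic quartic `x⁴ - b₄ x² - 2 b₆ x - b₈ - x₀ (4x³ + b₂ x² + 2 b₄ x + b₆)`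
has a root `x₁`; `4x₁³ + b₂ x₁² + 2 b₄ x₁ + b₆ ≠ 0` (otherwise `addSubMap` vanishes at
`(x₁², 2 x₁, 1)`, contradicting `WeierstrassCurve.addSubMap_ne_zero`); choose `y₁` with
`(x₁, y₁) ∈ W` (monic quadratic); then `x(2 (x₁, y₁)) = x₀` by `FG_addX_double`, `FG_psi_sq`. -/
theorem FG_exists_two_nsmul_eq {F : Type*} [Field F] [IsAlgClosed F] [DecidableEq F]
    (W : WeierstrassCurve F) (hΔ : W.Δ ≠ 0) (P : W.toAffine.Point) :
    ∃ Q : W.toAffine.Point, 2 • Q = P := by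
  rcases P with _ | ⟨x₀, y₀, h₀⟩
  · exact ⟨0, by rw [nsmul_zero]; rfl⟩
  obtain ⟨x₁, hx₁⟩ := Div2_exists_root (-4 * x₀) (-W.b₄ - x₀ * W.b₂) (-2 * W.b₆ - 2 * x₀ * W.b₄)
    (-W.b₈ - x₀ * W.b₆)
  have hND : dupN W x₁ = x₀ * dupD W x₁ := by
    simp only [dupN, dupD]
    linear_combination hx₁
  have hD : dupD W x₁ ≠ 0 := by
    intro hD
    apply dupN_ne_zero_of_dupD_eq_zero hΔ hD
    rw [hND, hD, mul_zero]
  obtain ⟨y₁, hy₁⟩ := FGDiv2_exists_root (W.a₁ * x₁ + W.a₃)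
    (-(x₁ ^ 3 + W.a₂ * x₁ ^ 2 + W.a₄ * x₁ + W.a₆))
  have h₁ : W.toAffine.Nonsingular x₁ y₁ := by
    rw [← Affine.equation_iff_nonsingular_of_Δ_ne_zero hΔ, Affine.equation_iff]
    linear_combination hy₁
  obtain ⟨y', h', e⟩ := x_two_nsmul h₁ hD
  have hx : dupN W x₁ / dupD W x₁ = x₀ := by
    rw [div_eq_iff hD, hND]
  revert h' e
  rw [hx]
  intro h' e
  rcases eq_or_eq_neg_of_x_eq h' h₀ with h2 | h2
  · exact ⟨_, by rw [e, h2]⟩
  · exact ⟨-Affine.Point.some x₁ y₁ h₁, by rw [smul_neg, e, h2, neg_neg]⟩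

end Fermat.Agent.EL
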