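import Fermat.Agent.EL.FG.Defs

/-!
# EL / FG / FieldA : `Y² + s Y - f` has no root in `K = κ(X)`  (degree argument: `deg f = 3` odd)
-/

set_option autoImplicit false

namespace Fermat.Agent.EL

open Fermat.Agent.S52 WeierstrassCurve Polynomial

variable {κ : Type*} [Field κ]

lemma FGFieldA_f_eq (W : WeierstrassCurve κ) : FG_f W = algebraMap κ[X] (RatFunc κ)
    (X ^ 3 + C W.a₂ * X ^ 2 + C W.a₄ * X + C W.a₆) := by
  simp only [FG_f, map_add, map_mul, map_pow, RatFunc.algebraMap_X, RatFunc.algebraMap_C]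

lemma FGFieldA_s_eq (W : WeierstrassCurve κ) : FG_s W = algebraMap κ[X] (RatFunc κ)
    (C W.a₁ * X + C W.a₃) := by
  simp only [FG_s, map_add, map_mul, RatFunc.algebraMap_X, RatFunc.algebraMap_C]

lemma FGFieldA_f_intDegree (W : WeierstrassCurve κ) : (FG_f W).intDegree = 3 := by
  rw [FGFieldA_f_eq, RatFunc.intDegree_polynomial]
  have : (X ^ 3 + C W.a₂ * X ^ 2 + C W.a₄ * X + C W.a₆ : κ[X]).natDegree = 3 := by
    compute_degree!
  rw [this]
  rfl

lemma FGFieldA_f_ne_zero (W : WeierstrassCurve κ) : FG_f W ≠ 0 := by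
  intro h
  have := FGFieldA_f_intDegree W
  rw [h, RatFunc.intDegree_zero] at this
  omega

lemma FGFieldA_s_intDegree (W : WeierstrassCurve κ) :
    0 ≤ (FG_s W).intDegree ∧ (FG_s W).intDegree ≤ 1 := by
  rw [FGFieldA_s_eq, RatFunc.intDegree_polynomial]
  have : (C W.a₁ * X + C W.a₃ : κ[X]).natDegree ≤ 1 := by
    compute_degree
  omega

/-- `intDegree`: if `d = deg r ≤ 1` then `deg (r² + s r) ≤ 2 < 3`; if `d ≥ 2` then
`2 d = deg (f - s r) ≤ max 3 (d + 1)`, impossible. -/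
theorem FG_no_root (W : WeierstrassCurve κ) (r : RatFunc κ) : r ^ 2 + FG_s W * r ≠ FG_f W := by
  intro h
  have hf := FGFieldA_f_intDegree W
  have hf0 := FGFieldA_f_ne_zero W
  obtain ⟨hs1, hs2⟩ := FGFieldA_s_intDegree W
  have hr : r ≠ 0 := by
    rintro rfl
    apply hf0
    rw [← h]
    ring
  have hr2 : (r ^ 2).intDegree = 2 * r.intDegree := by
    rw [pow_two, RatFunc.intDegree_mul hr hr]
    ring
  by_cases hs : FG_s W = 0
  · rw [hs, zero_mul, add_zero] at h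
    rw [h, hf] at hr2
    omega
  · have hsr : FG_s W * r ≠ 0 := mul_ne_zero hs hr
    have hsr2 : (FG_s W * r).intDegree = (FG_s W).intDegree + r.intDegree :=
      RatFunc.intDegree_mul hs hr
    rcases le_or_gt r.intDegree 1 with hd | hd
    · have h1 := RatFunc.intDegree_add_le (x := r ^ 2) hsr (by rw [h]; exact hf0)
      rw [h, hf, hr2, hsr2] at h1
      rcases le_max_iff.1 h1 with h2 | h2 <;> omega
    · have h0 : r ^ 2 = FG_f W + -(FG_s W * r) := by
        rw [← h]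
        ring
      have h1 := RatFunc.intDegree_add_le (x := FG_f W) (neg_ne_zero.2 hsr)
        (by rw [← h0]; exact pow_ne_zero 2 hr)
      rw [← h0, hf, hr2, RatFunc.intDegree_neg, hsr2] at h1
      rcases le_max_iff.1 h1 with h2 | h2 <;> omega

/-- `4 f + s² = 4X³ + b₂ X² + 2 b₄ X + b₆ ≠ 0` (if it vanishes then `4 = b₂ = 2 b₄ = b₆ = 0`, so
`2 = 0` and `Δ = -b₂² b₈ - 8 b₄³ - 27 b₆² + 9 b₂ b₄ b₆ = 0`). -/
theorem FG_psi_ne_zero {W : WeierstrassCurve κ} (hΔ : W.Δ ≠ 0) :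
    4 * FG_f W + FG_s W ^ 2 ≠ 0 := by
  intro h
  have h1 : 4 * FG_f W + FG_s W ^ 2 = algebraMap κ[X] (RatFunc κ)
      (C 4 * X ^ 3 + C W.b₂ * X ^ 2 + C (2 * W.b₄) * X + C W.b₆) := by
    rw [FGFieldA_f_eq, FGFieldA_s_eq, ← map_pow, ← map_ofNat (algebraMap κ[X] (RatFunc κ)) 4,
      ← map_mul, ← map_add]
    congr 1
    simp only [WeierstrassCurve.b₂, WeierstrassCurve.b₄, WeierstrassCurve.b₆, map_add, map_mul,
      map_pow, map_ofNat]
    ring
  rw [h1, map_eq_zero_iff _ (IsFractionRing.injective κ[X] (RatFunc κ))] at h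
  have c3 := congrArg (fun q => q.coeff 3) h
  have c2 := congrArg (fun q => q.coeff 2) h
  have c0 := congrArg (fun q => q.coeff 0) h
  simp [coeff_X, coeff_C] at c3 c2 c0
  apply hΔ
  rw [WeierstrassCurve.Δ, c2, c0]
  linear_combination (-2 * W.b₄ ^ 3) * c3

end Fermat.Agent.EL
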