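import Fermat.Agent.EL.FG.FieldA

/-!
# EL / FG / FieldB : existence of the function field `L = K[Y] / (Y² + s Y - f)`
(`AdjoinRoot` of a monic irreducible quadratic polynomial)
-/

set_option autoImplicit false

namespace Fermat.Agent.EL

open Fermat.Agent.S52 WeierstrassCurve Polynomial

universe u

theorem FG_exists_gen {κ : Type u} [Field κ] (W : WeierstrassCurve κ) :
    ∃ (L : Type u) (_ : Field L) (_ : Algebra κ L) (_ : Algebra (RatFunc κ) L)
      (_ : IsScalarTower κ (RatFunc κ) L) (yy : L), FG_IsGen W L yy := by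
  classical
  set m : (RatFunc κ)[X] := X ^ 2 + (C (FG_s W) * X + C (-FG_f W)) with hm
  have hlt : (C (FG_s W) * X + C (-FG_f W) : (RatFunc κ)[X]).degree < ((2 : ℕ) : WithBot ℕ) :=
    lt_of_le_of_lt degree_linear_le (by norm_num)
  have hmonic : m.Monic := monic_X_pow_add hlt
  have hdeg : m.natDegree = 2 := by
    rw [hm, natDegree_add_eq_left_of_degree_lt (by rw [degree_X_pow]; exact hlt), natDegree_X_pow]
  have heval : ∀ {R : Type u} [CommRing R] (σ : RatFunc κ →+* R) (y : R),
      m.eval₂ σ y = y ^ 2 + σ (FG_s W) * y - σ (FG_f W) := by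
    intro R _ σ y
    rw [hm, eval₂_add, eval₂_add, eval₂_pow, eval₂_mul, eval₂_X, eval₂_C, eval₂_C, map_neg]
    ring
  have hirr : Irreducible m := by
    refine irreducible_of_degree_le_three_of_not_isRoot (by rw [hdeg]; simp) fun r hr => ?_
    apply FG_no_root W r
    have h1 : m.eval₂ (RingHom.id _) r = 0 := by
      rw [eval₂_id]
      exact hr
    rw [heval] at h1
    exact sub_eq_zero.1 h1
  have : Fact (Irreducible m) := ⟨hirr⟩
  refine ⟨AdjoinRoot m, inferInstance, inferInstance, inferInstance, inferInstance,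
    AdjoinRoot.root m, ?_, ?_, ?_⟩
  · have h1 := AdjoinRoot.eval₂_root m
    rw [heval] at h1
    rw [AdjoinRoot.algebraMap_eq]
    exact sub_eq_zero.1 h1
  · intro z
    obtain ⟨p, rfl⟩ := AdjoinRoot.mk_surjective z
    have h1 : AdjoinRoot.mk m p = AdjoinRoot.mk m (p %ₘ m) := by
      rw [AdjoinRoot.mk_eq_mk]
      refine ⟨p /ₘ m, ?_⟩
      have := modByMonic_add_div p m
      linear_combination -this
    have h2 : (p %ₘ m).degree ≤ 1 := by
      have h3 := degree_modByMonic_lt p hmonic
      rw [degree_eq_natDegree hmonic.ne_zero, hdeg] at h3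
      exact Order.le_of_lt_succ h3
    refine ⟨(p %ₘ m).coeff 0, (p %ₘ m).coeff 1, ?_⟩
    rw [h1]
    conv_lhs => rw [eq_X_add_C_of_degree_le_one h2]
    rw [map_add, map_mul, AdjoinRoot.mk_C, AdjoinRoot.mk_C, AdjoinRoot.mk_X,
      AdjoinRoot.algebraMap_eq, add_comm]
  · intro σ y hy
    have h0 : m.eval₂ σ y = 0 := by
      rw [heval, hy, sub_self]
    refine ⟨AdjoinRoot.lift σ y h0, fun r => ?_, ?_⟩
    · rw [AdjoinRoot.algebraMap_eq, AdjoinRoot.lift_of]
    · exact AdjoinRoot.lift_root h0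

end Fermat.Agent.EL
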