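import Fermat.Agent.EL.FG.ParForms

/-!
# EL / FG / Par : the parallelogram law for the degree of the `x`-coordinate
Template: section `points` and `xdeg_parallelogram` of `Fermat/Agent/S52/FB/Parallelogram.lean`.
-/

set_option autoImplicit false

namespace Fermat.Agent.EL

open Fermat.Agent.S52 WeierstrassCurve Polynomial

section points
variable {κ : Type*} [Field κ] {L : Type*} [Field L] [Algebra (RatFunc κ) L]
  {WL : WeierstrassCurve L}

lemma FGPar_exists_pair (P : WL.toAffine.Point) (hP : FG_HasRatX κ P) :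
    ∃ a b : κ[X], IsCoprime a b ∧ max a.natDegree b.natDegree = FG_xdeg κ P ∧
      ∃ l : L, l ≠ 0 ∧ Par_ι κ L a = l * P.xRep 0 ∧ Par_ι κ L b = l * P.xRep 1 := by
  rcases P with _ | ⟨x, y, h⟩
  · refine ⟨1, 0, isCoprime_one_left, ?_, 1, one_ne_zero, ?_, ?_⟩
    · have h0 : FG_xdeg κ (Affine.Point.zero : WL.toAffine.Point) = 0 := rfl
      rw [h0]
      simp
    · simp [WeierstrassCurve.Affine.Point.xRep]
    · simp [WeierstrassCurve.Affine.Point.xRep]
  · obtain ⟨r, hr⟩ : ∃ r : RatFunc κ, algebraMap (RatFunc κ) L r = x := hP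
    have hden : Par_ι κ L r.denom ≠ 0 := by
      rw [Ne, map_eq_zero_iff _ Par_ι_injective]
      exact RatFunc.denom_ne_zero _
    refine ⟨r.num, r.denom, RatFunc.isCoprime_num_denom _, ?_, Par_ι κ L r.denom, hden, ?_, ?_⟩
    · rw [FG_xdeg_some κ h r hr, rdeg]
    · simp only [WeierstrassCurve.Affine.Point.xRep_some, Matrix.cons_val_zero]
      have h0 : algebraMap (RatFunc κ) L (algebraMap κ[X] (RatFunc κ) r.denom) ≠ 0 := hden
      have hr2 : algebraMap (RatFunc κ) L r =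
          algebraMap (RatFunc κ) L (algebraMap κ[X] (RatFunc κ) r.num) /
            algebraMap (RatFunc κ) L (algebraMap κ[X] (RatFunc κ) r.denom) := by
        rw [← map_div₀, RatFunc.num_div_denom]
      rw [← hr, hr2]
      simp only [Par_ι, RingHom.comp_apply]
      field_simp
    · simp

lemma FGPar_ι_sym {P Q : WL.toAffine.Point} {a b c d : κ[X]} {l l' : L}
    (ha : Par_ι κ L a = l * P.xRep 0) (hb : Par_ι κ L b = l * P.xRep 1)
    (hc : Par_ι κ L c = l' * Q.xRep 0) (hd : Par_ι κ L d = l' * Q.xRep 1) (i : Fin 3) :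
    Par_ι κ L (Par_sym a b c d i) = (l * l') * P.sym2x Q i := by
  fin_cases i <;>
    simp [Par_sym, WeierstrassCurve.Affine.Point.sym2x, ha, hb, hc, hd] <;> ring

end points

variable {κ : Type*} [Field κ] {L : Type*} [Field L] [Algebra κ L] [Algebra (RatFunc κ) L]
  [IsScalarTower κ (RatFunc κ) L] [DecidableEq L] {W : WeierstrassCurve κ}

omit [DecidableEq L] in
lemma FGPar_map_map (W : WeierstrassCurve κ) :
    (W.map C).map (Par_ι κ L) = W.map (algebraMap κ L) := by
  rw [WeierstrassCurve.map_map]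
  congr 1
  exact RingHom.ext fun a => Par_ι_C a

theorem FG_xdeg_parallelogram (hΔ : W.Δ ≠ 0) (P Q : (W.map (algebraMap κ L)).toAffine.Point)
    (hP : FG_HasRatX κ P) (hQ : FG_HasRatX κ Q) (hS : FG_HasRatX κ (P + Q))
    (hD : FG_HasRatX κ (P - Q)) :
    FG_xdeg κ (P + Q) + FG_xdeg κ (P - Q) = 2 * FG_xdeg κ P + 2 * FG_xdeg κ Q := by
  obtain ⟨a, b, hab, hdP, l, hl, ha, hb⟩ := FGPar_exists_pair P hP
  obtain ⟨c, d, hcd, hdQ, l', hl', hc, hd⟩ := FGPar_exists_pair Q hQ
  obtain ⟨a', b', hab', hdS, m, hm, ha', hb'⟩ := FGPar_exists_pair (P + Q) hS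
  obtain ⟨c', d', hcd', hdD, m', hm', hc', hd'⟩ := FGPar_exists_pair (P - Q) hD
  obtain ⟨c0, hc0, he⟩ := FG_addSubMap_sym2x (W.map (algebraMap κ L)) P Q
  set S := Par_sym a b c d with hSdef
  set U := FG_g (W.map C) S with hU
  set V := Par_sym a' b' c' d' with hV
  have hSprim : Par_Prim S := Par_prim_sym hab hcd
  have hιU : ∀ i, Par_ι κ L (U i) = ((l * l') ^ 2 * c0) * (P + Q).sym2x (P - Q) i := by
    intro i
    rw [hU, FG_g_map, FGPar_map_map]
    have : (fun j => Par_ι κ L (S j)) = fun j => (l * l') * P.sym2x Q j := by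
      ext j; exact FGPar_ι_sym ha hb hc hd j
    rw [this, FG_g_smul]
    have h2 : FG_g (W.map (algebraMap κ L)) (P.sym2x Q) i
        = c0 * ((P + Q).sym2x (P - Q)) i := he i
    rw [h2]
    ring
  have hιV : ∀ i, Par_ι κ L (V i) = (m * m') * (P + Q).sym2x (P - Q) i :=
    fun i => FGPar_ι_sym ha' hb' hc' hd' i
  have hprop : ∀ i j, U i * V j = U j * V i := by
    intro i j
    apply Par_ι_injective (k := κ) (L := L)
    rw [map_mul, map_mul, hιU, hιU, hιV, hιV]
    ring
  have h1 := Par_hdeg_eq_of_prop (FG_prim_g hΔ hSprim) (Par_prim_sym hab' hcd') hprop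
  rw [FG_hdeg_g hΔ hSprim, Par_hdeg_sym hab hcd, Par_hdeg_sym hab' hcd', hdP, hdQ, hdS,
    hdD] at h1
  omega

end Fermat.Agent.EL
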