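import Fermat.Agent.EL.FG.FieldA

/-!
# EL / FG / Odd : the group `G = {P ∈ W(L) : τ P = -P}` of "odd" points
`τ` = the conjugation of `L = K(yy)` over `K`, `τ yy = -yy - s`.
-/

set_option autoImplicit false
set_option linter.unusedSectionVars false

namespace Fermat.Agent.EL

open Fermat.Agent.S52 WeierstrassCurve Polynomial

section G
variable {L : Type*} [Field L] [DecidableEq L] {WL : WeierstrassCurve L}

/-- the group of points with `τ P = -P` -/
noncomputable def FG_G (τ : L →+* L) (hτ : WL.map τ = WL) : AddSubgroup WL.toAffine.Point :=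
  (mapPt τ hτ + AddMonoidHom.id _).ker

lemma FG_mem_G {τ : L →+* L} {hτ : WL.map τ = WL} {P : WL.toAffine.Point} :
    P ∈ FG_G τ hτ ↔ mapPt τ hτ P = -P := by
  rw [FG_G, AddMonoidHom.mem_ker, AddMonoidHom.add_apply, AddMonoidHom.id_apply,
    add_eq_zero_iff_eq_neg]

/-- two ring endomorphisms that commute induce commuting maps on points -/
lemma FG_mapPt_comm {M : Type*} [Field M] [DecidableEq M] {WM : WeierstrassCurve M}
    (T : L →+* M) (hT : WL.map T = WM) (φ : L →+* L) (hφ : WL.map φ = WL) (φ' : M →+* M)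
    (hφ' : WM.map φ' = WM) (hc : ∀ x, T (φ x) = φ' (T x)) (P : WL.toAffine.Point) :
    mapPt T hT (mapPt φ hφ P) = mapPt φ' hφ' (mapPt T hT P) := by
  rcases P with _ | ⟨x, y, h⟩
  · rfl
  · simp only [mapPt_some, hc]

/-- `G` is stable under the `q`-power Frobenius -/
theorem FG_frob_mem_G {τ : L →+* L} {hτ : WL.map τ = WL} (φ : L →+* L) (q : ℕ)
    (hφ : ∀ x, φ x = x ^ q) (hφW : WL.map φ = WL) {P : WL.toAffine.Point}
    (hP : P ∈ FG_G τ hτ) : mapPt φ hφW P ∈ FG_G τ hτ := by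
  rw [FG_mem_G] at hP ⊢
  rw [FG_mapPt_comm τ hτ φ hφW φ hφW (fun x => by rw [hφ, hφ, map_pow]), hP, map_neg]

end G

variable {κ : Type*} [Field κ] {L : Type*} [Field L] [Algebra κ L] [Algebra (RatFunc κ) L]
  [IsScalarTower κ (RatFunc κ) L] {W : WeierstrassCurve κ}

/-- the conjugation -/
theorem FG_exists_tau {yy : L} (hg : FG_IsGen W L yy) :
    ∃ τ : L →+* L, (∀ r, τ (algebraMap (RatFunc κ) L r) = algebraMap (RatFunc κ) L r) ∧
      τ yy = -yy - algebraMap (RatFunc κ) L (FG_s W) := by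
  obtain ⟨T, h1, h2⟩ := hg.lift (algebraMap (RatFunc κ) L)
    (-yy - algebraMap (RatFunc κ) L (FG_s W)) (by linear_combination hg.eqn)
  exact ⟨T, h1, h2⟩

/-- a ring endomorphism of `L` fixing `K` fixes `κ` -/
lemma FG_fix_base {τ : L →+* L}
    (hτK : ∀ r, τ (algebraMap (RatFunc κ) L r) = algebraMap (RatFunc κ) L r) (c : κ) :
    τ (algebraMap κ L c) = algebraMap κ L c := by
  rw [← FG_map_C, hτK]

variable [DecidableEq L]

/-- the `x`-coordinate of an odd point is a rational function: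
`x = A + B yy`, `τ x = x` gives `B (2 yy + s) = 0`, and `(2 yy + s)² = 4 f + s² ≠ 0`. -/
theorem FG_hasRatX_of_mem_G (hΔ : W.Δ ≠ 0) {yy : L} (hg : FG_IsGen W L yy) {τ : L →+* L}
    (hτK : ∀ r, τ (algebraMap (RatFunc κ) L r) = algebraMap (RatFunc κ) L r)
    (hτy : τ yy = -yy - algebraMap (RatFunc κ) L (FG_s W))
    (hτ : (W.map (algebraMap κ L)).map τ = W.map (algebraMap κ L))
    {P : (W.map (algebraMap κ L)).toAffine.Point} (hP : P ∈ FG_G τ hτ) : FG_HasRatX κ P := by
  rcases P with _ | ⟨x, y, h⟩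
  · exact FG_hasRatX_zero κ
  · rw [FG_mem_G, mapPt_some, Affine.Point.neg_some] at hP
    simp only [Affine.Point.some.injEq] at hP
    obtain ⟨hx, -⟩ := hP
    obtain ⟨A, B, hAB⟩ := hg.span x
    have h1 : algebraMap (RatFunc κ) L B * (2 * yy + algebraMap (RatFunc κ) L (FG_s W)) = 0 := by
      have h2 : τ x = algebraMap (RatFunc κ) L A +
          algebraMap (RatFunc κ) L B * (-yy - algebraMap (RatFunc κ) L (FG_s W)) := by
        rw [hAB, map_add, map_mul, hτK, hτK, hτy]
      rw [hx] at h2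
      linear_combination h2 - hAB
    have h3 : 2 * yy + algebraMap (RatFunc κ) L (FG_s W) ≠ 0 := by
      intro h0
      apply FG_psi_ne_zero hΔ
      apply (algebraMap (RatFunc κ) L).injective
      rw [map_zero, map_add, map_mul, map_pow, map_ofNat, ← hg.eqn]
      linear_combination (2 * yy + algebraMap (RatFunc κ) L (FG_s W)) * h0
    have hB : algebraMap (RatFunc κ) L B = 0 := (mul_eq_zero.1 h1).resolve_right h3
    exact ⟨A, by rw [hAB, hB, zero_mul, add_zero]⟩

/-- the generic point is odd -/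
theorem FG_eta_mem_G {yy : L} {τ : L →+* L}
    (hτK : ∀ r, τ (algebraMap (RatFunc κ) L r) = algebraMap (RatFunc κ) L r)
    (hτy : τ yy = -yy - algebraMap (RatFunc κ) L (FG_s W))
    (hτ : (W.map (algebraMap κ L)).map τ = W.map (algebraMap κ L))
    (hη : (W.map (algebraMap κ L)).toAffine.Nonsingular (algebraMap (RatFunc κ) L RatFunc.X) yy) :
    (.some _ _ hη : (W.map (algebraMap κ L)).toAffine.Point) ∈ FG_G τ hτ := by
  rw [FG_mem_G, mapPt_some, Affine.Point.neg_some]
  simp only [Affine.Point.some.injEq]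
  refine ⟨hτK _, ?_⟩
  rw [hτy, FG_negY, FG_map_s]
  ring

omit [Algebra κ L] [IsScalarTower κ (RatFunc κ) L] in
/-- the degree of `Φ P` -/
theorem FG_xdeg_frob {WL : WeierstrassCurve L} (φ : L →+* L) (q : ℕ) (hφ : ∀ x, φ x = x ^ q)
    (hφW : WL.map φ = WL) {P : WL.toAffine.Point} (hP : FG_HasRatX κ P) :
    FG_xdeg κ (mapPt φ hφW P) = q * FG_xdeg κ P := by
  rcases P with _ | ⟨x, y, h⟩
  · change FG_xdeg κ (mapPt φ hφW 0) = q * FG_xdeg κ (0 : WL.toAffine.Point)
    rw [map_zero, FG_xdeg_zero, mul_zero]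
  · obtain ⟨r, hr⟩ := hP
    rw [mapPt_some, FG_xdeg_some κ h r hr,
      FG_xdeg_some κ _ (r ^ q) (by rw [map_pow, hr, hφ]), rdeg_pow]

end Fermat.Agent.EL
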