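import Fermat.Agent.S52.FB.MainSubst
import Fermat.Agent.EL.FG.Odd
import Fermat.Agent.EL.FG.Const

/-!
# EL / FG / Subst : substitution homomorphisms `η ↦ α` and multiplicativity of the degree
Here `L = K(yy)` has the universal property `FG_IsGen.lift`, so that `η ↦ α` exactly (no sign).
-/

set_option autoImplicit false
set_option linter.unusedSectionVars false

namespace Fermat.Agent.EL

open Fermat.Agent.S52 WeierstrassCurve Polynomial

variable {κ : Type*} [Field κ] {L : Type*} [Field L] [Algebra κ L] [Algebra (RatFunc κ) L]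
  [IsScalarTower κ (RatFunc κ) L] [DecidableEq L] {W : WeierstrassCurve κ}

lemma FGSubst_C (σ : RatFunc κ →ₐ[κ] L) (c : κ) : σ (RatFunc.C c) = algebraMap κ L c := by
  rw [← RatFunc.algebraMap_eq_C, σ.commutes]

theorem FG_exists_subst {yy : L} (hg : FG_IsGen W L yy)
    (hη : (W.map (algebraMap κ L)).toAffine.Nonsingular (algebraMap (RatFunc κ) L RatFunc.X) yy)
    (σ : RatFunc κ →ₐ[κ] L) {x y : L} (h : (W.map (algebraMap κ L)).toAffine.Nonsingular x y)
    (hσ : σ RatFunc.X = x) :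
    ∃ (T : L →+* L) (hT : (W.map (algebraMap κ L)).map T = W.map (algebraMap κ L)),
      (∀ c : κ, T (algebraMap κ L c) = algebraMap κ L c) ∧
      (∀ r, T (algebraMap (RatFunc κ) L r) = σ r) ∧
      mapPt T hT (.some _ _ hη) = .some x y h := by
  obtain ⟨T, hT1, hT2⟩ := hg.lift σ.toRingHom y (by
    have e := FG_equation W h
    simp only [FG_s, FG_f, AlgHom.toRingHom_eq_coe, RingHom.coe_coe, map_add, map_mul, map_pow,
      FGSubst_C, hσ]
    exact e)
  have hTκ : ∀ c : κ, T (algebraMap κ L c) = algebraMap κ L c := by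
    intro c
    have e : T (algebraMap (RatFunc κ) L (RatFunc.C c)) = σ (RatFunc.C c) := hT1 _
    rw [FG_map_C, FGSubst_C] at e
    exact e
  refine ⟨T, FG_map_fix W T hTκ, hTκ, hT1, ?_⟩
  rw [mapPt_some]
  have e1 : T (algebraMap (RatFunc κ) L RatFunc.X) = x := by
    rw [hT1]; exact hσ
  simp only [e1, hT2]

theorem FG_xdeg_T {WL : WeierstrassCurve L} (T : L →+* L) (hT : WL.map T = WL)
    (σ : RatFunc κ →ₐ[κ] RatFunc κ)
    (hTσ : ∀ r, T (algebraMap (RatFunc κ) L r) = algebraMap (RatFunc κ) L (σ r))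
    {P : WL.toAffine.Point} (hP : FG_HasRatX κ P) :
    FG_xdeg κ (mapPt T hT P) = FG_xdeg κ P * rdeg (σ RatFunc.X) := by
  rcases P with _ | ⟨x, y, h⟩
  · change FG_xdeg κ (mapPt T hT 0) = FG_xdeg κ (0 : WL.toAffine.Point) * _
    rw [map_zero, FG_xdeg_zero, zero_mul]
  · obtain ⟨r, hr⟩ := hP
    rw [mapPt_some, FG_xdeg_some κ h r hr, FG_xdeg_some κ _ (σ r) (by rw [← hTσ, hr]), rdeg_algHom]

theorem FG_hmul [IsAlgClosed κ] (hΔ : W.Δ ≠ 0) {yy : L} (hg : FG_IsGen W L yy) {τ : L →+* L}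
    (hτK : ∀ r, τ (algebraMap (RatFunc κ) L r) = algebraMap (RatFunc κ) L r)
    (hτy : τ yy = -yy - algebraMap (RatFunc κ) L (FG_s W))
    (hτ : (W.map (algebraMap κ L)).map τ = W.map (algebraMap κ L))
    (φ : L →+* L) (q : ℕ) (hφ : ∀ x, φ x = x ^ q)
    (hφW : (W.map (algebraMap κ L)).map φ = W.map (algebraMap κ L))
    (hη : (W.map (algebraMap κ L)).toAffine.Nonsingular (algebraMap (RatFunc κ) L RatFunc.X) yy)
    {α : (W.map (algebraMap κ L)).toAffine.Point} (hα : α ∈ FG_G τ hτ) :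
    FG_xdeg κ (α + mapPt φ hφW α)
      = FG_xdeg κ ((.some _ _ hη : (W.map (algebraMap κ L)).toAffine.Point)
          + mapPt φ hφW (.some _ _ hη)) * FG_xdeg κ α := by
  have hηG := FG_eta_mem_G hτK hτy hτ hη
  have hγ : FG_HasRatX κ ((.some _ _ hη : (W.map (algebraMap κ L)).toAffine.Point)
      + mapPt φ hφW (.some _ _ hη)) :=
    FG_hasRatX_of_mem_G hΔ hg hτK hτy hτ (add_mem hηG (FG_frob_mem_G φ q hφ hφW hηG))
  have hαr : FG_HasRatX κ α := FG_hasRatX_of_mem_G hΔ hg hτK hτy hτ hα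
  by_cases hd : FG_xdeg κ α = 0
  · have hc := FG_isConstPt_of_xdeg hαr hd
    rw [hd, mul_zero]
    exact FG_xdeg_of_isConstPt (FG_isConstPt_add hc (FG_isConstPt_frob φ q hφ hφW hc))
  rcases α with _ | ⟨x, y, h⟩
  · exact absurd (FG_xdeg_zero κ) hd
  obtain ⟨r, hr⟩ := hαr
  rw [FG_xdeg_some κ h r hr] at hd ⊢
  have hrC : ¬ ∃ c, r = RatFunc.C c := fun hc => hd ((rdeg_eq_zero_iff r).2 hc)
  have htr : Transcendental κ r := RatFunc.transcendental_of_ne_C r hrC
  set σ : RatFunc κ →ₐ[κ] RatFunc κ := Main_phi r htr with hσ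
  have hσX : σ RatFunc.X = r := Main_phi_X r htr
  obtain ⟨T, hT, hTκ, hTσ, hTη⟩ := FG_exists_subst hg hη
    ((IsScalarTower.toAlgHom κ (RatFunc κ) L).comp σ) h (by
      rw [AlgHom.comp_apply, hσX]; exact hr)
  have h1 := FG_xdeg_T T hT σ (fun r => hTσ r) hγ
  rw [hσX, map_add, FG_mapPt_comm T hT φ hφW φ hφW (fun x => by rw [hφ, hφ, map_pow]), hTη] at h1
  exact h1

end Fermat.Agent.EL
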