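import Fermat.Agent.S52.FB.Quad
import Fermat.Agent.EL.FG.Subst
import Fermat.Agent.EL.FG.Par
import Fermat.Agent.EL.FG.Chi

/-!
# EL / FG / Gen : the Frobenius equation at the generic point (up to a factor `2`)
Template: `Main_generic` in `Fermat/Agent/S52/FB/MainGen.lean`.
-/

set_option autoImplicit false
set_option linter.unusedSectionVars false

namespace Fermat.Agent.EL

open Fermat.Agent.S52 WeierstrassCurve Polynomial

variable {κ : Type*} [Field κ] {L : Type*} [Field L] [Algebra κ L] [Algebra (RatFunc κ) L]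
  [IsScalarTower κ (RatFunc κ) L] [DecidableEq L] {W : WeierstrassCurve κ}

/-- Frobenius on the group of odd points -/
noncomputable def FGGen_frobG {WL : WeierstrassCurve L} (τ : L →+* L) (hτ : WL.map τ = WL)
    (φ : L →+* L) (q : ℕ) (hφ : ∀ x, φ x = x ^ q) (hφW : WL.map φ = WL) :
    FG_G τ hτ →+ FG_G τ hτ :=
  ((mapPt φ hφW).comp (FG_G τ hτ).subtype).codRestrict _
    fun P => FG_frob_mem_G φ q hφ hφW P.2

/-- `quad_frobenius` on `G = FG_G τ` (`τ` from `FG_exists_tau`), `d = FG_xdeg`: parallelogram law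
(`FG_xdeg_parallelogram`, `FG_hasRatX_of_mem_G`), `FG_xdeg_frob`, `FG_hmul`.  Then
`β = Φ² η - t Φ η + q η ∈ G` has degree `0`, so it is constant (`FG_isConstPt_of_xdeg`), so
`τ β = β` (`FG_mapPt_of_isConstPt`) and `τ β = -β`. -/
theorem FG_generic [IsAlgClosed κ] (hΔ : W.Δ ≠ 0) {yy : L} (hg : FG_IsGen W L yy)
    (φ : L →+* L) (q : ℕ) (hφ : ∀ x, φ x = x ^ q)
    (hφW : (W.map (algebraMap κ L)).map φ = W.map (algebraMap κ L))
    (hη : (W.map (algebraMap κ L)).toAffine.Nonsingular (algebraMap (RatFunc κ) L RatFunc.X) yy) :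
    (2 : ℤ) • FG_chi φ hφW
      (1 + (q : ℤ) - (FG_xdeg κ (mapPt φ hφW (.some _ _ hη)
        - (.some _ _ hη : (W.map (algebraMap κ L)).toAffine.Point)) : ℤ)) (q : ℤ)
      (.some _ _ hη) = 0 := by
  obtain ⟨τ, hτK, hτy⟩ := FG_exists_tau hg
  have hτ : (W.map (algebraMap κ L)).map τ = W.map (algebraMap κ L) :=
    FG_map_fix W τ (FG_fix_base hτK)
  set G := FG_G τ hτ with hG
  set Φ : G →+ G := FGGen_frobG τ hτ φ q hφ hφW with hΦdef
  set η : G := ⟨.some _ _ hη, FG_eta_mem_G hτK hτy hτ hη⟩ with hηdef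
  have hrat : ∀ P : G, FG_HasRatX κ (P : (W.map (algebraMap κ L)).toAffine.Point) :=
    fun P => FG_hasRatX_of_mem_G hΔ hg hτK hτy hτ P.2
  have hΦcoe : ∀ P : G, ((Φ P : G) : (W.map (algebraMap κ L)).toAffine.Point)
      = mapPt φ hφW P := fun P => rfl
  have key := quad_frobenius (G := G)
    (fun P => (FG_xdeg κ (P : (W.map (algebraMap κ L)).toAffine.Point) : ℤ))
    (fun x y => by
      have := FG_xdeg_parallelogram hΔ (x : (W.map (algebraMap κ L)).toAffine.Point) y (hrat x)
        (hrat y) (hrat (x + y)) (hrat (x - y))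
      simp only [AddSubgroup.coe_add, AddSubgroup.coe_sub]
      exact_mod_cast this)
    Φ (q : ℤ)
    (fun x => by
      simp only [hΦcoe]
      rw [FG_xdeg_frob φ q hφ hφW (hrat x)]
      push_cast
      ring)
    η
    (by
      simp only [hηdef]
      rw [FG_xdeg_some κ hη RatFunc.X rfl, rdeg_X]
      rfl)
    (by
      simp only [AddSubgroup.coe_add, hΦcoe]
      have := FG_hmul hΔ hg hτK hτy hτ φ q hφ hφW hη
        (α := ((η + Φ η : G) : (W.map (algebraMap κ L)).toAffine.Point)) (η + Φ η).2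
      simp only [AddSubgroup.coe_add, hΦcoe] at this
      rw [this, pow_two]
      push_cast
      rfl)
  set t : ℤ := 1 + (q : ℤ) - (FG_xdeg κ (mapPt φ hφW (.some _ _ hη)
        - (.some _ _ hη : (W.map (algebraMap κ L)).toAffine.Point)) : ℤ) with ht
  have hcount : (FG_xdeg κ ((Φ η - η : G) : (W.map (algebraMap κ L)).toAffine.Point) : ℤ)
      = (FG_xdeg κ (mapPt φ hφW (.some _ _ hη)
        - (.some _ _ hη : (W.map (algebraMap κ L)).toAffine.Point)) : ℤ) := by
    rw [AddSubgroup.coe_sub, hΦcoe]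
  simp only [hcount] at key
  rw [← ht] at key
  set β : G := Φ (Φ η) - t • Φ η + (q : ℤ) • η with hβ
  have hβcoe : (β : (W.map (algebraMap κ L)).toAffine.Point)
      = FG_chi φ hφW t (q : ℤ) (.some _ _ hη) := by
    rw [FG_chi_apply, hβ]
    simp only [AddSubgroup.coe_add, AddSubgroup.coe_sub, AddSubgroup.coe_zsmul, hΦcoe]
    rfl
  have hβ0 : FG_xdeg κ (β : (W.map (algebraMap κ L)).toAffine.Point) = 0 := by
    exact_mod_cast key
  have hβc : FG_IsConstPt κ (β : (W.map (algebraMap κ L)).toAffine.Point) :=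
    FG_isConstPt_of_xdeg (hrat β) hβ0
  have h1 : mapPt τ hτ (β : (W.map (algebraMap κ L)).toAffine.Point) = β :=
    FG_mapPt_of_isConstPt τ (FG_fix_base hτK) hτ hβc
  have h2 : mapPt τ hτ (β : (W.map (algebraMap κ L)).toAffine.Point) = -β := FG_mem_G.1 β.2
  rw [← hβcoe, two_zsmul]
  have h3 : (β : (W.map (algebraMap κ L)).toAffine.Point) = -β := h1.symm.trans h2
  calc (β : (W.map (algebraMap κ L)).toAffine.Point) + β
      = (β : (W.map (algebraMap κ L)).toAffine.Point) + -β := by rw [← h3]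
    _ = 0 := add_neg_cancel _

end Fermat.Agent.EL
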