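import Fermat.Agent.EL.FG.Subst
import Fermat.Agent.EL.FG.Chi

/-!
# EL / FG / Spec : specialisation by translation
-/

set_option autoImplicit false
set_option linter.unusedSectionVars false

namespace Fermat.Agent.EL

open Fermat.Agent.S52 WeierstrassCurve Polynomial

variable {κ : Type*} [Field κ] {L : Type*} [Field L] [Algebra κ L] [Algebra (RatFunc κ) L]
  [IsScalarTower κ (RatFunc κ) L] [DecidableEq L] {W : WeierstrassCurve κ}

/-- `α = η + P` is not constant (`FG_eta_not_isConstPt`, `FG_isConstPt_sub`), so `x(α)` is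
transcendental (`FG_isConstPt_of_isAlgebraic`); `σ = Main_phi x(α)`, `T` from `FG_exists_subst`,
`T η = α`, `χ(α) = T χ(η)` (`FG_map_chi`). -/
theorem FG_translate [IsAlgClosed κ] {yy : L} (hg : FG_IsGen W L yy)
    (φ : L →+* L) (q : ℕ) (hφ : ∀ x, φ x = x ^ q)
    (hφW : (W.map (algebraMap κ L)).map φ = W.map (algebraMap κ L)) (t u : ℤ)
    (hη : (W.map (algebraMap κ L)).toAffine.Nonsingular (algebraMap (RatFunc κ) L RatFunc.X) yy)
    (hχ : (2 : ℤ) • FG_chi φ hφW t u (.some _ _ hη) = 0)
    (P : (W.map (algebraMap κ L)).toAffine.Point) (hP : FG_IsConstPt κ P) :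
    (2 : ℤ) • FG_chi φ hφW t u P = 0 := by
  have hαna : ¬ FG_IsConstPt κ
      ((.some _ _ hη : (W.map (algebraMap κ L)).toAffine.Point) + P) := by
    intro h
    have := FG_isConstPt_sub h hP
    rw [add_sub_cancel_right] at this
    exact FG_eta_not_isConstPt hη this
  have key : (2 : ℤ) • FG_chi φ hφW t u
      ((.some _ _ hη : (W.map (algebraMap κ L)).toAffine.Point) + P) = 0 := by
    generalize (.some _ _ hη : (W.map (algebraMap κ L)).toAffine.Point) + P = α at hαna
    rcases α with _ | ⟨x, y, h⟩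
    · exact absurd trivial hαna
    have hx : Transcendental κ x := fun hx => hαna (FG_isConstPt_of_isAlgebraic h hx)
    obtain ⟨T, hT, -, -, hTη⟩ := FG_exists_subst hg hη (Main_phi x hx) h (Main_phi_X x hx)
    rw [← hTη, ← FG_map_chi T hT φ hφW φ hφW (fun x => by rw [hφ, hφ, map_pow]), ← map_zsmul, hχ,
      map_zero]
  rw [map_add, smul_add, hχ, zero_add] at key
  exact key

end Fermat.Agent.EL
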