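import Fermat.Agent.EL.FrobK
import Fermat.Agent.EL.FG.FieldB
import Fermat.Agent.EL.FG.Gen
import Fermat.Agent.EL.FG.Spec
import Fermat.Agent.EL.FG.Div2
import Fermat.Agent.EL.FG.Count

/-!
# EL / FG / Main : the Frobenius equation `φ² - a φ + ℓ = 0` on `V(F)`, `V` any elliptic curve over
`𝔽_ℓ` (every prime `ℓ`), `F` an algebraic closure of `𝔽_ℓ`
-/

set_option autoImplicit false

namespace Fermat.Agent.EL

open Fermat.Agent.S52 WeierstrassCurve

variable (ℓ : ℕ) [Fact ℓ.Prime]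

/-- the case `ℓ = 2, 3` -/
theorem FG_frobenius_equation_small (hℓ : ℓ = 2 ∨ ℓ = 3) (V : WeierstrassCurve (ZMod ℓ))
    (hΔ : V.Δ ≠ 0)
    {F : Type*} [Field F] [Algebra (ZMod ℓ) F] [IsAlgClosed F]
    [DecidableEq F] {VF : WeierstrassCurve F} (hV : V.map (algebraMap (ZMod ℓ) F) = VF)
    (hfr : VF.map (frobHom ℓ) = VF) (P : VF.toAffine.Point) :
    mapPt (frobHom ℓ) hfr (mapPt (frobHom ℓ) hfr P)
      - ((ℓ : ℤ) + 1 - (Nat.card V.toAffine.Point : ℤ)) • mapPt (frobHom ℓ) hfr P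
      + (ℓ : ℤ) • P = 0 := by
  classical
  have hΔF : VF.Δ ≠ 0 := by
    rw [← hV, map_Δ, Ne, map_eq_zero]
    exact hΔ
  obtain ⟨L, _, _, _, _, yy, hg⟩ := FG_exists_gen VF
  haveI : CharP F ℓ := charP_of_injective_algebraMap (algebraMap (ZMod ℓ) F).injective ℓ
  haveI : CharP L ℓ := charP_of_injective_algebraMap (algebraMap F L).injective ℓ
  set φ : L →+* L := frobenius L ℓ with hφdef
  have hφ : ∀ x, φ x = x ^ ℓ := fun x => rfl
  have hc : ∀ x : F, algebraMap F L (frobHom ℓ x) = φ (algebraMap F L x) := by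
    intro x
    rw [hφ, frobHom_apply, map_pow]
  have hφW : (VF.map (algebraMap F L)).map φ = VF.map (algebraMap F L) := by
    conv_rhs => rw [← hfr]
    rw [WeierstrassCurve.map_map, WeierstrassCurve.map_map]
    congr 1
    exact RingHom.ext fun x => (hc x).symm
  have hη := FG_eta_nonsingular hΔF hg
  have hgen := FG_generic hΔF hg φ ℓ hφ hφW hη
  rw [FG_xdeg_frob_sub ℓ hℓ V hΔ hV φ hφ hφW hη] at hgen
  obtain ⟨Q, hQ⟩ := FG_exists_two_nsmul_eq VF hΔF P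
  have h2 := FG_translate hg φ ℓ hφ hφW _ _ hη hgen
    (mapPt (algebraMap F L) rfl Q) ((FG_isConstPt_iff _).2 ⟨Q, rfl⟩)
  rw [← FG_map_chi (algebraMap F L) rfl (frobHom ℓ) hfr φ hφW hc, ← map_zsmul] at h2
  have h3 := mapPt_injective (algebraMap F L) rfl (h2.trans (map_zero _).symm)
  rw [← map_zsmul, show (2 : ℤ) • Q = P by rw [← hQ]; norm_cast, FG_chi_apply] at h3
  rw [← h3, add_comm (1 : ℤ) (ℓ : ℤ)]

/-- **Frobenius equation**, every prime `ℓ`. -/
theorem frobenius_equation_all (V : WeierstrassCurve (ZMod ℓ)) (hΔ : V.Δ ≠ 0)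
    {F : Type*} [Field F] [Algebra (ZMod ℓ) F] [IsAlgClosed F] [Algebra.IsAlgebraic (ZMod ℓ) F]
    [DecidableEq F] {VF : WeierstrassCurve F} (hV : V.map (algebraMap (ZMod ℓ) F) = VF)
    (hfr : VF.map (frobHom ℓ) = VF) (P : VF.toAffine.Point) :
    mapPt (frobHom ℓ) hfr (mapPt (frobHom ℓ) hfr P)
      - ((ℓ : ℤ) + 1 - (Nat.card V.toAffine.Point : ℤ)) • mapPt (frobHom ℓ) hfr P
      + (ℓ : ℤ) • P = 0 := by
  by_cases hℓ : 5 ≤ ℓ
  · exact frobenius_equation_gen ℓ hℓ V hΔ hV hfr P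
  · have hp : ℓ.Prime := Fact.out
    have h2 := hp.two_le
    have hs : ℓ = 2 ∨ ℓ = 3 := by
      have h4 : ℓ ≠ 4 := by
        rintro rfl
        exact absurd hp (by norm_num)
      omega
    exact FG_frobenius_equation_small ℓ hs V hΔ hV hfr P

end Fermat.Agent.EL
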