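import Fermat.Agent.S52.FB.Parallelogram
import Fermat.Agent.EL.FG.Defs
import Fermat.Agent.EL.FG.AddSub

/-!
# EL / FG / ParForms : the addition-subtraction forms on primitive triples of polynomials
Template: section `forms` of `Fermat/Agent/S52/FB/Parallelogram.lean` (short curves); the section
`triples` of that file (`Par_hdeg`, `Par_Prim`, ...) is generic and is reused as it is.
-/

set_option autoImplicit false

namespace Fermat.Agent.EL

open Fermat.Agent.S52 WeierstrassCurve Polynomial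

/-- The three quadratic forms of `WeierstrassCurve.addSubMap`. -/
noncomputable def FG_g {R : Type*} [CommRing R] (W : WeierstrassCurve R) (s : Fin 3 → R) :
    Fin 3 → R :=
  fun i => MvPolynomial.eval s (W.addSubMap i)

lemma FGParForms_g_eq {R : Type*} [CommRing R] (W : WeierstrassCurve R) (s : Fin 3 → R) :
    FG_g W s =
      ![s 0 * s 0 - W.b₄ * (s 0 * s 2) - W.b₆ * (s 1 * s 2) - W.b₈ * (s 2 * s 2),
        2 * (s 1 * s 0) + W.b₂ * (s 0 * s 2) + W.b₄ * (s 1 * s 2) + W.b₆ * (s 2 * s 2),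
        s 1 * s 1 - 4 * (s 0 * s 2)] := by
  obtain ⟨h0, h1, h2⟩ := FG_addSub_eval W s
  ext i : 1
  fin_cases i
  · show MvPolynomial.eval s (W.addSubMap 0) =
      s 0 * s 0 - W.b₄ * (s 0 * s 2) - W.b₆ * (s 1 * s 2) - W.b₈ * (s 2 * s 2)
    rw [h0]
    ring
  · show MvPolynomial.eval s (W.addSubMap 1) =
      2 * (s 1 * s 0) + W.b₂ * (s 0 * s 2) + W.b₄ * (s 1 * s 2) + W.b₆ * (s 2 * s 2)
    rw [h1]
    ring
  · show MvPolynomial.eval s (W.addSubMap 2) = s 1 * s 1 - 4 * (s 0 * s 2)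
    rw [h2]
    ring

lemma FG_g_map {R R' : Type*} [CommRing R] [CommRing R'] (f : R →+* R') (W : WeierstrassCurve R)
    (s : Fin 3 → R) (i : Fin 3) : f (FG_g W s i) = FG_g (W.map f) (fun j => f (s j)) i := by
  rw [FGParForms_g_eq, FGParForms_g_eq]
  fin_cases i <;> simp [map_ofNat]

lemma FG_g_smul {R : Type*} [CommRing R] (W : WeierstrassCurve R) (l : R) (s : Fin 3 → R)
    (i : Fin 3) : FG_g W (fun j => l * s j) i = l ^ 2 * FG_g W s i := by
  rw [FGParForms_g_eq, FGParForms_g_eq]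
  fin_cases i <;> simp <;> ring

variable {k : Type*} [Field k]

lemma FG_g_ne_zero {W : WeierstrassCurve k} (hΔ : W.Δ ≠ 0) {s : Fin 3 → k} (hs : ∃ i, s i ≠ 0) :
    ∃ i, FG_g W s i ≠ 0 := by
  have : W.IsElliptic := ⟨hΔ.isUnit⟩
  have hs' : s ≠ 0 := by
    obtain ⟨i, hi⟩ := hs
    intro h; exact hi (by rw [h]; rfl)
  have := WeierstrassCurve.addSubMap_ne_zero W hs'
  by_contra hcon
  push Not at hcon
  apply this
  ext i
  exact hcon i

lemma FG_prim_g {W : WeierstrassCurve k} (hΔ : W.Δ ≠ 0) {S : Fin 3 → k[X]} (hS : Par_Prim S) :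
    Par_Prim (FG_g (W.map C) S) := by
  have : (W.map C).IsElliptic := by
    refine ⟨?_⟩
    rw [WeierstrassCurve.map_Δ]
    exact hΔ.isUnit.map C
  rw [Par_prim_iff] at hS ⊢
  rw [← Ideal.radical_eq_top]
  rw [eq_top_iff, ← hS, Ideal.span_le]
  rintro _ ⟨i, rfl⟩
  refine ⟨4, ?_⟩
  rw [← WeierstrassCurve.addSubMapCoeff_condition (W.map C) S i]
  exact Ideal.sum_mem _ (fun j _ => Ideal.mul_mem_left _ _ (Ideal.subset_span ⟨j, rfl⟩))

lemma FGParForms_g_C (W : WeierstrassCurve k) (S : Fin 3 → k[X]) :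
    FG_g (W.map C) S =
      ![C 1 * (S 0 * S 0) - C W.b₄ * (S 0 * S 2) - C W.b₆ * (S 1 * S 2)
          - C W.b₈ * (S 2 * S 2),
        C 2 * (S 1 * S 0) + C W.b₂ * (S 0 * S 2) + C W.b₄ * (S 1 * S 2) + C W.b₆ * (S 2 * S 2),
        C 1 * (S 1 * S 1) - C 4 * (S 0 * S 2)] := by
  rw [FGParForms_g_eq]
  ext i : 1
  fin_cases i <;> simp [map_ofNat]

lemma FG_hdeg_g {W : WeierstrassCurve k} (hΔ : W.Δ ≠ 0) {S : Fin 3 → k[X]} (hS : Par_Prim S) :
    Par_hdeg (FG_g (W.map C) S) = 2 * Par_hdeg S := by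
  set h := Par_hdeg S with hh
  have hd : ∀ i, (S i).natDegree ≤ h := Par_natDegree_le_hdeg S
  rw [two_mul]
  apply le_antisymm
  · apply Par_hdeg_le
    intro i
    rw [FGParForms_g_C]
    fin_cases i
    · exact Par_natDegree_sub (Par_natDegree_sub (Par_natDegree_sub
        (Par_natDegree_term _ (hd 0) (hd 0)) (Par_natDegree_term _ (hd 0) (hd 2)))
        (Par_natDegree_term _ (hd 1) (hd 2))) (Par_natDegree_term _ (hd 2) (hd 2))
    · exact natDegree_add_le_of_degree_le (natDegree_add_le_of_degree_le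
        (natDegree_add_le_of_degree_le
        (Par_natDegree_term _ (hd 1) (hd 0)) (Par_natDegree_term _ (hd 0) (hd 2)))
        (Par_natDegree_term _ (hd 1) (hd 2))) (Par_natDegree_term _ (hd 2) (hd 2))
    · exact Par_natDegree_sub (Par_natDegree_term _ (hd 1) (hd 1))
        (Par_natDegree_term _ (hd 0) (hd 2))
  · apply Par_le_hdeg_of_coeff
    obtain ⟨i, hi⟩ := FG_g_ne_zero hΔ (s := fun j => (S j).coeff h)
      (Par_exists_coeff_hdeg hS)
    refine ⟨i, ?_⟩
    have : (FG_g (W.map C) S i).coeff (h + h) = FG_g W (fun j => (S j).coeff h) i := by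
      rw [FGParForms_g_C, FGParForms_g_eq]
      fin_cases i
      · simp only [Fin.zero_eta, Matrix.cons_val_zero, coeff_sub,
          Par_coeff_term _ (hd 0) (hd 0), Par_coeff_term _ (hd 0) (hd 2),
          Par_coeff_term _ (hd 1) (hd 2), Par_coeff_term _ (hd 2) (hd 2), one_mul]
      · simp only [Fin.mk_one, Matrix.cons_val_one, Matrix.cons_val_zero, coeff_add,
          Par_coeff_term _ (hd 1) (hd 0), Par_coeff_term _ (hd 0) (hd 2),
          Par_coeff_term _ (hd 1) (hd 2), Par_coeff_term _ (hd 2) (hd 2)]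
      · simp only [Fin.reduceFinMk, Matrix.cons_val, coeff_sub,
          Par_coeff_term _ (hd 1) (hd 1), Par_coeff_term _ (hd 0) (hd 2), one_mul]
    rw [this]
    exact hi

end Fermat.Agent.EL
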